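import Fermat.Agent.S56.H334.RamQuot

/-!
# S56 / W-FLAT-SS, piece FL-RAM (helper334), part 9: the quotient formula

Setting of `RamQuot` (`A ⊆ B` DVRs, `Γ` finite Galois group, `N ⊴ Γ`, finite residue fields).

* `dvd_prod_sub_smul`, `prod_sub_smul_dvd` : for `B = A[x]`, `B^N = A[y]` and `σ ∈ Γ`, the
  elements `σ y - y` and `∏_{h ∈ N} (x - σ h x)` of `B` divide each other.
* `quot_formula` (Serre, Local Fields IV §1 Prop. 3): for `N ≤ Γ₀` and `σ ∉ N`,
  `∑_{w ∈ N} i_Γ(σ w) = |N| · i_{Γ/N}(σ N)`.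
-/

set_option autoImplicit false
set_option linter.unusedSectionVars false
set_option linter.style.haveILetI false

open IsLocalRing Polynomial

namespace Fermat.Agent.S56.H334

section Core

variable (A B Γ : Type*) [CommRing A] [CommRing B] [IsDomain B] [Algebra A B]
  [Group Γ] [MulSemiringAction Γ B] [SMulCommClass Γ A B] (N : Subgroup Γ) [Fintype N]

/-- Twisted evaluation: apply `σ` to the coefficients, then evaluate at `x`. -/
noncomputable def twistEval (σ : Γ) (x : B) : B[X] →+* B :=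
  eval₂RingHom (MulSemiringAction.toRingHom Γ B σ) x

theorem twistEval_X_sub_C (σ : Γ) (x b : B) : twistEval B Γ σ x (X - C b) = x - σ • b := by
  simp [twistEval]

theorem twistEval_charpoly (σ : Γ) (x : B) :
    twistEval B Γ σ x (MulSemiringAction.charpoly N x) = ∏ h : N, (x - (σ * (h : Γ)) • x) := by
  rw [MulSemiringAction.charpoly_eq, map_prod]
  refine Finset.prod_congr rfl fun h _ => ?_
  rw [twistEval_X_sub_C, mul_smul]
  rfl

theorem twistEval_map_algebraMap (σ : Γ) (x : B) (g : A[X]) :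
    twistEval B Γ σ x (g.map (algebraMap A B)) = aeval x g := by
  rw [twistEval, coe_eval₂RingHom, eval₂_map, aeval_def]
  congr 1
  ext a
  simp [smul_algebraMap]

/-- `σ y - y ∣ ∏_{h ∈ N} (x - σ h x)` if `y` generates `B^N` over `A`. -/
theorem dvd_prod_sub_smul [N.Normal] (σ : Γ) (x : B) {y : FixedPoints.subalgebra A B N}
    (hy : Algebra.adjoin A {y} = ⊤) :
    σ • (y : B) - y ∣ ∏ h : N, (x - (σ * (h : Γ)) • x) := by
  rw [← twistEval_charpoly]
  set f := MulSemiringAction.charpoly N x with hf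
  have h0 : eval x f = 0 := MulSemiringAction.eval_charpoly N x
  have h1 : twistEval B Γ σ x f = twistEval B Γ σ x f - eval x f := by rw [h0, sub_zero]
  rw [h1, twistEval, coe_eval₂RingHom, eval₂_eq_sum_range, eval_eq_sum_range,
    ← Finset.sum_sub_distrib]
  refine Finset.dvd_sum fun i _ => ?_
  rw [← sub_mul]
  apply Dvd.dvd.mul_right
  -- the coefficient is fixed by `N`
  have hfix : ∀ h : N, h • f.coeff i = f.coeff i :=
    fun h => MulSemiringAction.smul_coeff_charpoly x i h
  set c : FixedPoints.subalgebra A B N := ⟨f.coeff i, hfix⟩ with hc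
  have hcmem : c ∈ Algebra.adjoin A {y} := by rw [hy]; exact Algebra.mem_top
  have h2 := sub_dvd_smul_sub_of_mem_adjoin (A := A) (σ : Γ ⧸ N) y hcmem
  obtain ⟨d, hd⟩ := h2
  refine ⟨(d : B), ?_⟩
  have h3 := congrArg Subtype.val hd
  exact h3

variable [IsDomain A] [IsDiscreteValuationRing A] [IsDiscreteValuationRing B]
  [Module.Finite A B] [FaithfulSMul A B] [Finite Γ] [Algebra.IsInvariant A B Γ] [FaithfulSMul Γ B]

theorem adjoin_fixedPoints_eq_top {x : B} (hx : Algebra.adjoin A {x} = ⊤) :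
    Algebra.adjoin (FixedPoints.subalgebra A B N) {x} = ⊤ := by
  rw [eq_top_iff]
  intro b _
  have hb : b ∈ Algebra.adjoin A {x} := by rw [hx]; exact Algebra.mem_top
  have hle : Algebra.adjoin A {x} ≤
      (Algebra.adjoin (FixedPoints.subalgebra A B N) {x}).restrictScalars A :=
    Algebra.adjoin_le (by
      intro z hz
      exact Algebra.subset_adjoin hz)
  exact hle hb

/-- `∏_{h ∈ N} (x - σ h x) ∣ σ y - y` if `x` generates `B` over `A`. -/
theorem prod_sub_smul_dvd (σ : Γ) {x : B} (hx : Algebra.adjoin A {x} = ⊤)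
    (y : FixedPoints.subalgebra A B N) :
    ∏ h : N, (x - (σ * (h : Γ)) • x) ∣ σ • (y : B) - y := by
  haveI := isDiscreteValuationRing_fixedPoints A B N
  haveI := finite_over_fixedPoints A B N
  haveI := isGaloisGroup_of_datum A B Γ
  rw [← twistEval_charpoly, ← dvd_neg, neg_sub]
  -- `y = g(x)`
  have hymem : (y : B) ∈ Algebra.adjoin A {x} := by rw [hx]; exact Algebra.mem_top
  rw [Algebra.adjoin_singleton_eq_range_aeval] at hymem
  obtain ⟨g, hg⟩ := hymem
  have hg' : aeval x g = (y : B) := hg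
  set G : (FixedPoints.subalgebra A B N)[X] :=
    g.map (algebraMap A (FixedPoints.subalgebra A B N)) - C y with hG
  have hroot : aeval x G = 0 := by
    rw [hG, map_sub, aeval_map_algebraMap, aeval_C, hg']
    exact sub_self _
  have hint : IsIntegral (FixedPoints.subalgebra A B N) x := Algebra.IsIntegral.isIntegral x
  obtain ⟨q, hq⟩ := minpoly.isIntegrallyClosed_dvd hint hroot
  have hmap := congrArg (Polynomial.map (algebraMap (FixedPoints.subalgebra A B N) B)) hq
  rw [Polynomial.map_mul,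
    minpoly_map_eq_charpoly (FixedPoints.subalgebra A B N) B N
      (adjoin_fixedPoints_eq_top A B Γ N hx)] at hmap
  have h2 := congrArg (twistEval B Γ σ x) hmap
  rw [map_mul] at h2
  have h3 : twistEval B Γ σ x (G.map (algebraMap (FixedPoints.subalgebra A B N) B)) =
      (y : B) - σ • (y : B) := by
    rw [hG, Polynomial.map_sub, Polynomial.map_map, ← IsScalarTower.algebraMap_eq, map_sub,
      twistEval_map_algebraMap, hg', Polynomial.map_C]
    simp [twistEval]
  rw [h3] at h2
  exact ⟨_, h2⟩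

end Core

section Formula

variable (A B Γ : Type*) [CommRing A] [IsDomain A] [IsDiscreteValuationRing A]
  [CommRing B] [IsDomain B] [IsDiscreteValuationRing B] [Algebra A B] [Module.Finite A B]
  [FaithfulSMul A B] [Group Γ] [Finite Γ] [MulSemiringAction Γ B] [SMulCommClass Γ A B]
  [Algebra.IsInvariant A B Γ] [FaithfulSMul Γ B]
  (N : Subgroup Γ) [N.Normal] [Finite (ResidueField A)]

omit [IsDomain A] [IsDiscreteValuationRing A] [IsDiscreteValuationRing B] [Module.Finite A B]
  [FaithfulSMul A B] [Finite Γ] [Algebra.IsInvariant A B Γ] [FaithfulSMul Γ B] [N.Normal]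
  [Finite (ResidueField A)] in
theorem isLocalHom_fixedPoints : IsLocalHom (algebraMap (FixedPoints.subalgebra A B N) B) :=
  ⟨fun a ha => (fixedPoints_isUnit_iff A B N a).2 ha⟩

omit [N.Normal] in
/-- The inertia group of `N` acting on `B` is all of `N` if `N ≤ Γ₀`. -/
theorem ramGroup_zero_subgroup_eq_top (hN : N ≤ ramGroup Γ B 0) : ramGroup N B 0 = ⊤ := by
  rw [eq_top_iff]
  intro h _ x
  exact hN h.2 x

omit [N.Normal] in
/-- `e(B/B^N) = |N|` if `N ≤ Γ₀`. -/
theorem map_maximalIdeal_fixedPoints (hN : N ≤ ramGroup Γ B 0) :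
    haveI := isDiscreteValuationRing_fixedPoints A B N
    Ideal.map (algebraMap (FixedPoints.subalgebra A B N) B)
      (maximalIdeal (FixedPoints.subalgebra A B N)) = maximalIdeal B ^ Nat.card N := by
  haveI := isDiscreteValuationRing_fixedPoints A B N
  haveI := isLocalHom_fixedPoints A B Γ N
  haveI := finite_over_fixedPoints A B N
  haveI := finite_fixedPoints A B N
  haveI := finite_residueField_of_finite A (FixedPoints.subalgebra A B N)
  haveI := isGaloisGroup_of_datum A B Γ
  obtain ⟨e, -, he⟩ := exists_map_maximalIdeal_eq_pow (FixedPoints.subalgebra A B N) B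
  have hcard := card_ramGroup_zero_eq (Γ := N) he
  rw [ramGroup_zero_subgroup_eq_top B Γ N hN, Subgroup.card_top] at hcard
  rw [he, hcard]

/-- **Quotient formula** (Serre, Local Fields IV §1 Prop. 3), `Fintype` form. -/
theorem quot_formula_sum [Fintype N] (hN : N ≤ ramGroup Γ B 0) {σ : Γ} (hσ : σ ∉ N) :
    ∑ h : N, lowIdx Γ B (σ * (h : Γ)) = Nat.card N * quotLowIdx A B Γ N σ := by
  haveI := isDiscreteValuationRing_fixedPoints A B N
  haveI := isLocalHom_fixedPoints A B Γ N
  haveI := finite_fixedPoints A B N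
  haveI := faithfulSMul_quotient A B Γ N
  obtain ⟨x, hx⟩ := exists_adjoin_eq_top_of_finite A B
  obtain ⟨y, hy⟩ := exists_adjoin_eq_top_of_finite A (FixedPoints.subalgebra A B N)
  have he := map_maximalIdeal_fixedPoints A B Γ N hN
  have hne : (σ : Γ ⧸ N) ≠ 1 := fun h => hσ ((QuotientGroup.eq_one_iff σ).1 h)
  -- left-hand side
  have h1 : Ideal.span {(σ : Γ ⧸ N) • y - y} =
      maximalIdeal (FixedPoints.subalgebra A B N) ^ quotLowIdx A B Γ N σ :=
    span_smul_sub_eq (A := A) hy hne
  have h2 := map_span_eq_pow_of_span_eq he h1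
  have h3 : algebraMap (FixedPoints.subalgebra A B N) B ((σ : Γ ⧸ N) • y - y) =
      σ • (y : B) - y := rfl
  rw [h3] at h2
  -- right-hand side
  have h4 : Ideal.span {∏ h : N, (x - (σ * (h : Γ)) • x)} =
      maximalIdeal B ^ ∑ h : N, lowIdx Γ B (σ * (h : Γ)) := by
    rw [← Ideal.prod_span_singleton, ← Finset.prod_pow_eq_pow_sum]
    refine Finset.prod_congr rfl fun h _ => ?_
    have hne' : σ * (h : Γ) ≠ 1 := by
      intro h1
      apply hσ
      have : σ = (h : Γ)⁻¹ := eq_inv_of_mul_eq_one_left h1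
      rw [this]
      exact N.inv_mem h.2
    rw [← span_smul_sub_eq (A := A) hx hne', ← neg_sub, Ideal.span_singleton_neg]
  have h5 : Ideal.span {σ • (y : B) - y} = Ideal.span {∏ h : N, (x - (σ * (h : Γ)) • x)} :=
    Ideal.span_singleton_eq_span_singleton.2
      (associated_of_dvd_dvd (dvd_prod_sub_smul A B Γ N σ x hy)
        (prod_sub_smul_dvd A B Γ N σ hx y))
  rw [h2, h4] at h5
  exact (maximalIdeal_pow_injective h5).symm

/-- **Quotient formula** (Serre, Local Fields IV §1 Prop. 3): for `N ⊴ Γ`, `N ≤ Γ₀`, `σ ∉ N`: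
`∑_{w ∈ N} i_Γ(σ w) = |N| · i_{Γ/N}(σ N)`. -/
theorem quot_formula (hN : N ≤ ramGroup Γ B 0) {σ : Γ} (hσ : σ ∉ N) :
    ∑ᶠ (w : Γ) (_ : w ∈ N), lowIdx Γ B (σ * w) = Nat.card N * quotLowIdx A B Γ N σ := by
  cases nonempty_fintype N
  rw [← quot_formula_sum A B Γ N hN hσ, ← finsum_eq_sum_of_fintype]
  exact (finsum_set_coe_eq_finsum_mem (N : Set Γ) (f := fun w => lowIdx Γ B (σ * w))).symm

end Formula

end Fermat.Agent.S56.H334
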