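import Fermat.Agent.S56.FL.RamLemSpec
import Fermat.Agent.S56.H334.RamQuotFormula

/-!
# S56 / W-FLAT-SS, piece FL-RAM (helper334): the frozen statements `RLWild`, `RLComm`

Bridge from `FL.RCDatum` to the setting of `H334/Ram*.lean`, and proofs of
`FL.RLWildStatement`, `FL.RLCommStatement` (verbatim from `FL/RamLemSpec.lean`).
-/

set_option autoImplicit false
set_option linter.unusedSectionVars false
set_option linter.style.haveILetI false

open IsLocalRing

namespace Fermat.Agent.S56.H334

open Fermat.Agent.S56

section Bridge

variable (d : FL.RCDatum)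

theorem fl_ramGroup_eq (n : ℕ) : FL.ramGroup d.B d.Γ n = ramGroup d.Γ d.B n := rfl

theorem rc_fact_prime : Fact d.p.Prime := ⟨d.hp⟩

theorem rc_finite_residue : Finite (ResidueField d.A) :=
  Nat.finite_of_card_ne_zero (by rw [d.hκ]; exact d.hp.ne_zero)

theorem rc_charP_residue : CharP (ResidueField d.A) d.p := by
  rw [CharP.charP_iff_prime_eq_zero d.hp]
  have h1 : (d.p : d.A) ∈ maximalIdeal d.A := by
    rw [d.hA]; exact Ideal.mem_span_singleton_self _
  have h2 := (residue_eq_zero_iff (d.p : d.A)).2 h1
  rwa [map_natCast] at h2

theorem rc_charP_residue_B : CharP (ResidueField d.B) d.p :=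
  haveI := rc_charP_residue d
  charP_residueField_of_charP d.A d.B d.p

theorem rc_finite_residue_B : Finite (ResidueField d.B) :=
  haveI := rc_finite_residue d
  finite_residueField_of_finite d.A d.B

theorem rc_inertiaResidue : InertiaResidue d.Γ d.B :=
  haveI := rc_finite_residue d
  inertiaResidue_of_datum d.A d.B d.Γ

end Bridge

/-- **RL-A** (frozen `FL.RLWildStatement`): the wild inertia group is a `p`-group. -/
theorem rlWild : FL.RLWildStatement := by
  intro d
  haveI := rc_fact_prime d
  haveI := rc_finite_residue d
  haveI := rc_charP_residue d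
  exact isPGroup_ramGroup_one_of_datum d.A d.B d.Γ d.p

/-- **RL-B** (frozen `FL.RLCommStatement`): commutators lie in the inertia group. -/
theorem rlComm : FL.RLCommStatement := by
  intro d g h
  haveI := rc_finite_residue d
  exact commutator_mem_ramGroup_zero_of_datum d.A d.B d.Γ g h

end Fermat.Agent.S56.H334
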