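import Fermat.Agent.S56.H334.RLBase

/-!
# S56 / W-FLAT-SS, piece FL-RAM (helper334): the frozen statement `RLQuot`

Proof of `FL.RLQuotStatement` (verbatim from `FL/RamLemSpec.lean`): the ramification groups
`qRam d N n` of the quotients `Γ / N`, `N ≤ Γ₁` normal.

* `qRam_eq_quotRamGroup` : `d.qRam N n` is the subgroup `quotRamGroup d.A d.B d.Γ N n`
  (ramification groups of `Γ ⧸ N` acting on the DVR `B^N`, pulled back to `Γ`).
-/

set_option autoImplicit false
set_option linter.unusedSectionVars false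
set_option linter.style.haveILetI false

open IsLocalRing

namespace Fermat.Agent.S56.H334

open Fermat.Agent.S56

section QRam

variable (A B Γ : Type*) [CommRing A] [IsDomain A] [IsDiscreteValuationRing A]
  [CommRing B] [IsDomain B] [IsDiscreteValuationRing B] [Algebra A B] [Module.Finite A B]
  [FaithfulSMul A B] [Group Γ] [Finite Γ] [MulSemiringAction Γ B] [SMulCommClass Γ A B]
  [Algebra.IsInvariant A B Γ] [FaithfulSMul Γ B]
  (N : Subgroup Γ) [N.Normal] [Finite (ResidueField A)]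

/-- Membership in `quotRamGroup` in terms of `B` only (for `N ≤ Γ₀`). -/
theorem mem_quotRamGroup_iff_forall (hN : N ≤ ramGroup Γ B 0) (n : ℕ) (σ : Γ) :
    σ ∈ quotRamGroup A B Γ N n ↔
      ∀ x : B, (∀ ν ∈ N, ν • x = x) → σ • x - x ∈ maximalIdeal B ^ (Nat.card N * (n + 1)) := by
  haveI := isDiscreteValuationRing_fixedPoints A B N
  haveI := isLocalHom_fixedPoints A B Γ N
  have he := map_maximalIdeal_fixedPoints A B Γ N hN
  rw [mem_quotRamGroup_iff]
  constructor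
  · intro h x hx
    have hx' : ∀ ν : N, ν • x = x := fun ν => hx ν ν.2
    have h1 := h ⟨x, hx'⟩
    have h2 : (σ : Γ ⧸ N) • (⟨x, hx'⟩ : FixedPoints.subalgebra A B N) - ⟨x, hx'⟩ ∈
        maximalIdeal (FixedPoints.subalgebra A B N) ^ (n + 1) := h1
    rw [mem_maximalIdeal_pow_iff_of_map_eq he] at h2
    exact h2
  · intro h x
    show (σ : Γ ⧸ N) • x - x ∈ maximalIdeal (FixedPoints.subalgebra A B N) ^ (n + 1)
    rw [mem_maximalIdeal_pow_iff_of_map_eq he]
    exact h x (fun ν hν => x.2 ⟨ν, hν⟩)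

/-- Separatedness: `σ ∉ N` lies outside some `F N n`. -/
theorem exists_not_mem_quotRamGroup {σ : Γ} (hσ : σ ∉ N) :
    ∃ n, σ ∉ quotRamGroup A B Γ N n := by
  haveI := isDiscreteValuationRing_fixedPoints A B N
  haveI := faithfulSMul_quotient A B Γ N
  have hne : (σ : Γ ⧸ N) ≠ 1 := fun h => hσ ((QuotientGroup.eq_one_iff σ).1 h)
  obtain ⟨n, hn⟩ := exists_not_mem_ramGroup (Γ := Γ ⧸ N) (B := FixedPoints.subalgebra A B N) hne
  exact ⟨n, hn⟩

end QRam

/-- `d.qRam N n` is (the underlying set of) `quotRamGroup`. -/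
theorem qRam_eq_quotRamGroup (d : FL.RCDatum) (N : Subgroup d.Γ) [N.Normal]
    (hN : N ≤ ramGroup d.Γ d.B 0) (n : ℕ) :
    d.qRam N n = (quotRamGroup d.A d.B d.Γ N n : Set d.Γ) := by
  haveI := rc_finite_residue d
  ext σ
  rw [SetLike.mem_coe, mem_quotRamGroup_iff_forall d.A d.B d.Γ N hN n σ]
  rfl

/-- **RL-Q** (frozen `FL.RLQuotStatement`). -/
theorem rlQuot : FL.RLQuotStatement := by
  intro d N hN
  haveI := hN.1
  haveI := rc_fact_prime d
  haveI := rc_finite_residue d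
  haveI := rc_charP_residue d
  have hN1 : N ≤ ramGroup d.Γ d.B 1 := hN.2
  have hN0 : N ≤ ramGroup d.Γ d.B 0 := hN1.trans (ramGroup_antitone (Nat.zero_le 1))
  have key : ∀ n σ, σ ∈ d.qRam N n ↔ σ ∈ quotRamGroup d.A d.B d.Γ N n := by
    intro n σ
    rw [qRam_eq_quotRamGroup d N hN0 n]
    rfl
  refine ⟨?_, ?_, ?_, ?_, ?_, ?_⟩
  · intro n
    exact ⟨quotRamGroup d.A d.B d.Γ N n, quotRamGroup_normal d.A d.B d.Γ N n,
      (qRam_eq_quotRamGroup d N hN0 n).symm⟩
  · intro σ hσ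
    exact (key 0 σ).2 (ramGroup_zero_le_quotRamGroup d.A d.B d.Γ N hσ)
  · intro σ hσ
    exact (key 1 σ).2 (ramGroup_one_le_quotRamGroup d.A d.B d.Γ N d.p hσ)
  · intro σ hσ0 hσ1
    exact quotRamGroup_one_inf_le d.A d.B d.Γ N d.p hN1 ⟨(key 1 σ).1 hσ1, hσ0⟩
  · intro σ hσ
    obtain ⟨n, hn⟩ := exists_not_mem_quotRamGroup d.A d.B d.Γ N hσ
    exact ⟨n, fun h => hn ((key n σ).1 h)⟩
  · intro n hn σ hσ hσ' τ hτ
    rw [key, key]
    exact quot_conj_mul_inv_mem_iff d.A d.B d.Γ N hn ((key n σ).1 hσ)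
      (fun h => hσ' ((key (n + 1) σ).2 h)) hτ

end Fermat.Agent.S56.H334
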