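import Fermat.Agent.S56.H334.RLBase

/-!
# S56 / W-FLAT-SS, piece FL-RAM (helper334): the frozen statement `RLTame`

Proof of `FL.RLTameStatement` (verbatim from `FL/RamLemSpec.lean`): tame inertia is cyclic,
generated by `τ₀`, with faithful tame character `μ = θ₀(τ₀)`; `Γ / Γ₀` is generated by a Frobenius
lift `φ`, and `φ τ₀ φ⁻¹ ≡ τ₀ ^ p` modulo `Γ₁`.
-/

set_option autoImplicit false
set_option linter.unusedSectionVars false
set_option linter.style.haveILetI false

open IsLocalRing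

namespace Fermat.Agent.S56.H334

open Fermat.Agent.S56

section TameAbstract

variable {B : Type*} [CommRing B] [IsDomain B] [IsDiscreteValuationRing B]
variable {Γ : Type*} [Group Γ] [MulSemiringAction Γ B]
variable {π : B} (hπ : Irreducible π)

include hπ in
/-- `θ₀` does not depend on the uniformizer. -/
theorem residue_eq_residue_cOf {σ : Γ} (hσ : σ ∈ ramGroup Γ B 0) {ϖ u : B} (hϖ : Irreducible ϖ)
    (hu : σ • ϖ = u * ϖ) : residue B u = residue B (cOf hπ σ) := by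
  obtain ⟨w, hw⟩ := (IsDiscreteValuationRing.associated_of_irreducible B hπ hϖ)
  -- `ϖ = π * w`
  have h1 : σ • ϖ = (σ • (w : B)) * cOf hπ σ * π := by
    rw [← hw, smul_mul', smul_eq_mul_cOf hπ σ]; ring
  rw [hu, ← hw] at h1
  have h2 : u * (w : B) = σ • (w : B) * cOf hπ σ := by
    have : (u * (w : B)) * π = (σ • (w : B) * cOf hπ σ) * π := by
      rw [← h1]; ring
    exact mul_right_cancel₀ hπ.ne_zero this
  have h3 := congrArg (residue B) h2
  rw [map_mul, map_mul, residue_smul_eq_of_mem hσ] at h3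
  have hw0 : residue B (w : B) ≠ 0 := by
    rw [Ne, residue_eq_zero_iff, mem_maximalIdeal, mem_nonunits_iff, not_not]
    exact w.isUnit
  rw [mul_comm (residue B u)] at h3
  exact mul_left_cancel₀ hw0 h3

/-- A generator of the tame inertia group. -/
theorem exists_tame_generator (hH : InertiaResidue Γ B) [Finite Γ] :
    ∃ τ₀ ∈ ramGroup Γ B 0, ∀ σ ∈ ramGroup Γ B 0, ∃ j : ℕ, σ * (τ₀ ^ j)⁻¹ ∈ ramGroup Γ B 1 := by
  haveI := isCyclic_inertia_quotient (Γ := Γ) (B := B) hH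
  obtain ⟨g, hg⟩ := IsCyclic.exists_generator
    (α := ramGroup Γ B 0 ⧸ (ramGroup Γ B 1).subgroupOf (ramGroup Γ B 0))
  obtain ⟨t, rfl⟩ := QuotientGroup.mk_surjective g
  refine ⟨t, t.2, fun σ hσ => ?_⟩
  have h1 := hg (QuotientGroup.mk ⟨σ, hσ⟩)
  rw [← mem_powers_iff_mem_zpowers] at h1
  obtain ⟨j, hj⟩ := h1
  refine ⟨j, ?_⟩
  have h2 : ((t ^ j : ramGroup Γ B 0) : ramGroup Γ B 0 ⧸ (ramGroup Γ B 1).subgroupOf
      (ramGroup Γ B 0)) = QuotientGroup.mk ⟨σ, hσ⟩ := hj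
  rw [QuotientGroup.eq] at h2
  have h3 : ((t ^ j)⁻¹ * ⟨σ, hσ⟩ : ramGroup Γ B 0).1 ∈ ramGroup Γ B 1 := h2
  have h4 : ((t : Γ) ^ j)⁻¹ * σ ∈ ramGroup Γ B 1 := h3
  exact (ramGroup_normal 1).mem_comm h4

include hπ in
/-- `τ ^ j ∈ Γ₁ ↔ θ₀(τ) ^ j = 1`. -/
theorem pow_mem_ramGroup_one_iff (hH : InertiaResidue Γ B) {τ : Γ} (hτ : τ ∈ ramGroup Γ B 0)
    (j : ℕ) : τ ^ j ∈ ramGroup Γ B 1 ↔ residue B (cOf hπ τ) ^ j = 1 := by
  set t : ramGroup Γ B 0 := ⟨τ, hτ⟩ with ht
  have h1 : τ ^ j = ((t ^ j : ramGroup Γ B 0) : Γ) := rfl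
  rw [h1, ← theta0_eq_one_iff hπ hH, map_pow]
  constructor
  · intro h
    have h2 := congrArg Units.val h
    rwa [Units.val_pow_eq_pow_val, theta0_apply, Units.val_one] at h2
  · intro h
    apply Units.ext
    rw [Units.val_pow_eq_pow_val, theta0_apply, Units.val_one]
    exact h

include hπ in
/-- A Frobenius lift `φ` satisfies `φ τ φ⁻¹ ≡ τ ^ q` modulo `Γ₁` for `τ ∈ Γ₀`. -/
theorem frob_conj_mul_inv_mem (hH : InertiaResidue Γ B) {q : ℕ} {φ : Γ}
    (hφ : ∀ x : B, residue B (φ • x) = residue B x ^ q) {τ : Γ} (hτ : τ ∈ ramGroup Γ B 0) :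
    φ * τ * φ⁻¹ * (τ ^ q)⁻¹ ∈ ramGroup Γ B 1 := by
  have hconj : φ * τ * φ⁻¹ ∈ ramGroup Γ B 0 := (ramGroup_normal 0).conj_mem _ hτ φ
  set t : ramGroup Γ B 0 := ⟨τ, hτ⟩ with ht
  set c : ramGroup Γ B 0 := ⟨φ * τ * φ⁻¹, hconj⟩ with hc
  have h1 : φ * τ * φ⁻¹ * (τ ^ q)⁻¹ = ((c * (t ^ q)⁻¹ : ramGroup Γ B 0) : Γ) := rfl
  rw [h1, ← theta0_eq_one_iff hπ hH, map_mul, map_inv, mul_inv_eq_one, map_pow]
  apply Units.ext
  rw [Units.val_pow_eq_pow_val, theta0_apply, theta0_apply]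
  show residue B (cOf hπ (φ * τ * φ⁻¹)) = residue B (cOf hπ τ) ^ q
  rw [theta0_conj hπ φ t, ← IsLocalRing.ResidueField.residue_smul, hφ]

end TameAbstract

section Frobenius

variable (A B Γ : Type*) [CommRing A] [IsDomain A] [IsDiscreteValuationRing A]
  [CommRing B] [IsDomain B] [IsDiscreteValuationRing B] [Algebra A B] [Module.Finite A B]
  [FaithfulSMul A B] [Group Γ] [Finite Γ] [MulSemiringAction Γ B] [SMulCommClass Γ A B]
  [Algebra.IsInvariant A B Γ] [FaithfulSMul Γ B] [Finite (ResidueField A)]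

/-- Existence of a Frobenius lift. -/
theorem exists_frobenius_lift :
    ∃ φ : Γ, ∀ x : B, residue B (φ • x) = residue B x ^ Nat.card (ResidueField A) := by
  haveI := finite_residueField_of_finite A B
  haveI : Finite (B ⧸ maximalIdeal B) := ‹Finite (ResidueField B)›
  obtain ⟨φ, hφ⟩ := IsArithFrobAt.exists_of_isInvariant A Γ (maximalIdeal B)
  refine ⟨φ, fun x => ?_⟩
  have h := hφ x
  rw [← Ideal.over_def (maximalIdeal B) (maximalIdeal A)] at h
  rw [← sub_eq_zero, ← map_pow, ← map_sub, residue_eq_zero_iff]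
  exact h

/-- The automorphism of the residue field extension induced by `σ`. -/
noncomputable def residueAlgEquiv (σ : Γ) : ResidueField B ≃ₐ[ResidueField A] ResidueField B :=
  AlgEquiv.ofRingEquiv (f := MulSemiringAction.toRingEquiv Γ (ResidueField B) σ) (by
    intro a
    obtain ⟨a₀, rfl⟩ := residue_surjective a
    rw [IsLocalRing.ResidueField.algebraMap_residue]
    show σ • residue B (algebraMap A B a₀) = _
    rw [← IsLocalRing.ResidueField.residue_smul, smul_algebraMap])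

theorem residueAlgEquiv_apply (σ : Γ) (y : ResidueField B) :
    residueAlgEquiv A B Γ σ y = σ • y := rfl

/-- Every `σ` acts on the residue field as a power of the Frobenius. -/
theorem exists_smul_eq_pow (σ : Γ) :
    ∃ n : ℕ, ∀ y : ResidueField B, σ • y = y ^ (Nat.card (ResidueField A) ^ n) := by
  haveI := finite_residueField_of_finite A B
  cases nonempty_fintype (ResidueField A)
  obtain ⟨n, hn⟩ := (FiniteField.bijective_frobeniusAlgEquivOfAlgebraic_pow (ResidueField A)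
    (ResidueField B)).2 (residueAlgEquiv A B Γ σ)
  refine ⟨n.1, fun y => ?_⟩
  have h1 := DFunLike.congr_fun hn y
  rw [residueAlgEquiv_apply] at h1
  rw [← h1, AlgEquiv.coe_pow, FiniteField.coe_frobeniusAlgEquivOfAlgebraic_iterate,
    Nat.card_eq_fintype_card]

include A in
/-- `Γ / Γ₀` is generated by a Frobenius lift. -/
theorem exists_mul_inv_pow_mem_ramGroup_zero {φ : Γ}
    (hφ : ∀ x : B, residue B (φ • x) = residue B x ^ Nat.card (ResidueField A)) (σ : Γ) :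
    ∃ j : ℕ, σ * (φ ^ j)⁻¹ ∈ ramGroup Γ B 0 := by
  obtain ⟨n, hn⟩ := exists_smul_eq_pow A B Γ σ
  refine ⟨n, ?_⟩
  have hφ' : ∀ y : ResidueField B, φ • y = y ^ Nat.card (ResidueField A) := by
    intro y
    obtain ⟨x, rfl⟩ := residue_surjective y
    rw [← IsLocalRing.ResidueField.residue_smul, hφ]
  have hpow : ∀ (k : ℕ) (y : ResidueField B),
      (φ ^ k) • y = y ^ (Nat.card (ResidueField A) ^ k) := by
    intro k
    induction k with
    | zero => intro y; simp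
    | succ k ih =>
      intro y
      rw [pow_succ, mul_smul, hφ', ih, ← pow_mul, pow_succ, mul_comm]
  intro x
  show (σ * (φ ^ n)⁻¹) • x - x ∈ ((maximalIdeal B) ^ (0 + 1)).toAddSubgroup
  rw [zero_add, pow_one]
  show (σ * (φ ^ n)⁻¹) • x - x ∈ maximalIdeal B
  rw [← residue_eq_zero_iff, map_sub, sub_eq_zero, IsLocalRing.ResidueField.residue_smul,
    mul_smul, hn, ← hpow, smul_inv_smul]

end Frobenius

/-- **RL-C** (frozen `FL.RLTameStatement`). -/
theorem rlTame : FL.RLTameStatement := by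
  intro d
  haveI := rc_fact_prime d
  haveI := rc_finite_residue d
  have hH := rc_inertiaResidue d
  obtain ⟨π, hπ⟩ := IsDiscreteValuationRing.exists_irreducible d.B
  obtain ⟨τ₀, hτ₀, hgen⟩ := exists_tame_generator (Γ := d.Γ) (B := d.B) hH
  obtain ⟨φ, hφ⟩ := exists_frobenius_lift d.A d.B d.Γ
  have hφ' : ∀ x : d.B, residue d.B (φ • x) = residue d.B x ^ d.p := by
    intro x; rw [hφ x, d.hκ]
  refine ⟨τ₀, hτ₀, φ, residue d.B (cOf hπ τ₀), hgen, ?_, ?_, hφ', ?_, ?_⟩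
  · intro j
    exact pow_mem_ramGroup_one_iff hπ hH hτ₀ j
  · intro ϖ hϖ u hu
    exact residue_eq_residue_cOf hπ hτ₀ hϖ hu
  · intro σ
    exact exists_mul_inv_pow_mem_ramGroup_zero d.A d.B d.Γ hφ σ
  · exact frob_conj_mul_inv_mem hπ hH hφ' hτ₀

end Fermat.Agent.S56.H334
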