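import Fermat.Agent.S56.H334.RLBase

/-!
# S56 / W-FLAT-SS, piece FL-RAM (helper334): the frozen statement `RLTheta`

Proof of `FL.RLThetaStatement` (verbatim from `FL/RamLemSpec.lean`): the maps
`θ_n : Γ_n / Γ_{n+1} ↪ κ` (`n ≥ 1`) with their equivariance.
-/

set_option autoImplicit false
set_option linter.unusedSectionVars false
set_option linter.style.haveILetI false

open IsLocalRing

namespace Fermat.Agent.S56.H334

open Fermat.Agent.S56

section ThetaFun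

variable {B : Type*} [CommRing B] [IsDomain B] [IsDiscreteValuationRing B]
variable {Γ : Type*} [Group Γ] [MulSemiringAction Γ B]
variable {π : B} (hπ : Irreducible π)

/-- `θ_{m+1}` as a function on all of `Γ` (zero outside `Γ_{m+1}`). -/
noncomputable def thetaFun (m : ℕ) (σ : Γ) : ResidueField B :=
  open Classical in
  if σ ∈ ramGroup Γ B (m + 1) then residue B (aOf hπ m σ) else 0

theorem thetaFun_of_mem {m : ℕ} {σ : Γ} (hσ : σ ∈ ramGroup Γ B (m + 1)) :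
    thetaFun hπ m σ = residue B (aOf hπ m σ) := by
  rw [thetaFun, if_pos hσ]

theorem smul_sub_eq_aOf_mul {m : ℕ} {σ : Γ} (hσ : σ ∈ ramGroup Γ B (m + 1)) :
    σ • π - π = aOf hπ m σ * π ^ (m + 1 + 1) := by
  rw [smul_eq_mul_cOf hπ σ, cOf_eq_of_mem hπ hσ]
  ring

theorem thetaFun_eq_residue {m : ℕ} {σ : Γ} (hσ : σ ∈ ramGroup Γ B (m + 1)) {a : B}
    (ha : σ • π - π = a * π ^ (m + 1 + 1)) : thetaFun hπ m σ = residue B a := by
  rw [thetaFun_of_mem hπ hσ]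
  rw [smul_sub_eq_aOf_mul hπ hσ] at ha
  rw [mul_right_cancel₀ (pow_ne_zero _ hπ.ne_zero) ha]

theorem thetaFun_mul {m : ℕ} {σ τ : Γ} (hσ : σ ∈ ramGroup Γ B (m + 1))
    (hτ : τ ∈ ramGroup Γ B (m + 1)) :
    thetaFun hπ m (σ * τ) = thetaFun hπ m σ + thetaFun hπ m τ := by
  rw [thetaFun_of_mem hπ hσ, thetaFun_of_mem hπ hτ,
    thetaFun_of_mem hπ (Subgroup.mul_mem _ hσ hτ)]
  exact residue_aOf_mul hπ ⟨σ, hσ⟩ ⟨τ, hτ⟩

theorem mem_of_thetaFun_eq_zero (hH : InertiaResidue Γ B) {m : ℕ} {σ : Γ}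
    (hσ : σ ∈ ramGroup Γ B (m + 1)) (h : thetaFun hπ m σ = 0) :
    σ ∈ ramGroup Γ B (m + 1 + 1) := by
  rw [thetaFun_of_mem hπ hσ] at h
  refine (theta_eq_one_iff hπ hH m ⟨σ, hσ⟩).1 ?_
  apply Multiplicative.toAdd.injective
  rw [theta_apply]
  exact h

theorem thetaFun_conj {m : ℕ} {σ : Γ} (hσ : σ ∈ ramGroup Γ B (m + 1)) (g : Γ) {u a : B}
    (hu : g • π = u * π) (ha : residue B a = thetaFun hπ m σ) :
    thetaFun hπ m (g * σ * g⁻¹) = residue B u ^ (m + 1) * residue B (g • a) := by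
  have hconj : g * σ * g⁻¹ ∈ ramGroup Γ B (m + 1) := (ramGroup_normal (m + 1)).conj_mem _ hσ g
  rw [thetaFun_of_mem hπ hconj]
  rw [thetaFun_of_mem hπ hσ] at ha
  have hu' : u = cOf hπ g := by
    have h1 := smul_eq_mul_cOf hπ g
    rw [hu, mul_comm] at h1
    exact mul_left_cancel₀ hπ.ne_zero h1
  rw [hu', IsLocalRing.ResidueField.residue_smul, ha]
  exact theta_conj hπ m g ⟨σ, hσ⟩

end ThetaFun

/-- **RL-θ** (frozen `FL.RLThetaStatement`). -/
theorem rlTheta : FL.RLThetaStatement := by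
  intro d ϖ hϖ n hn
  obtain ⟨m, rfl⟩ : ∃ m, n = m + 1 := ⟨n - 1, by omega⟩
  have hH := rc_inertiaResidue d
  refine ⟨thetaFun hϖ m, ?_, ?_, ?_, ?_⟩
  · intro σ hσ a ha
    exact thetaFun_eq_residue hϖ hσ ha
  · intro σ hσ τ hτ
    exact thetaFun_mul hϖ hσ hτ
  · intro σ hσ h
    exact mem_of_thetaFun_eq_zero hϖ hH hσ h
  · intro σ hσ g u a hu ha
    exact thetaFun_conj hϖ hσ g hu ha

end Fermat.Agent.S56.H334
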