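import Fermat.Agent.S56.H334.RamTheta

/-!
# S56 / W-FLAT-SS, piece FL-RAM (helper334), part 5: commutator rules

Setting as in `RamBasic`/`RamTheta`: a DVR `B`, a group `Γ` acting by ring automorphisms.

* `smul_comm_residueField` : if the residue field is finite, the actions of any two elements of `Γ`
  on the residue field commute (automorphisms of a finite field commute).
* `commutator_mem_ramGroup_zero` : `g h g⁻¹ h⁻¹ ∈ Γ₀`  (`Γ/Γ₀` is abelian).
* `conj_mul_inv_mem_ramGroup_iff` : under (H), for `n ≥ 1`, `σ ∈ Γ_n ∖ Γ_{n+1}`, `τ ∈ Γ₀`: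
  `τ σ τ⁻¹ σ⁻¹ ∈ Γ_{n+1} ↔ τ ^ n ∈ Γ₁`    (Serre, Local Fields IV §2 Prop. 9 + Cor.).
-/

set_option autoImplicit false
set_option linter.unusedSectionVars false

open IsLocalRing

namespace Fermat.Agent.S56.H334

variable {B : Type*} [CommRing B] [IsDomain B] [IsDiscreteValuationRing B]
variable {Γ : Type*} [Group Γ] [MulSemiringAction Γ B]

/-- Automorphisms of a finite field commute: the actions of `g, h ∈ Γ` on the residue field
commute. -/
theorem smul_comm_residueField [Finite (ResidueField B)] (g h : Γ) (y : ResidueField B) :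
    g • h • y = h • g • y := by
  obtain ⟨z, hz⟩ := IsCyclic.exists_generator (α := (ResidueField B)ˣ)
  have key : ∀ σ : Γ, ∃ a : ℕ, σ • (z : ResidueField B) = (z : ResidueField B) ^ a := by
    intro σ
    have h1 := hz (Units.map (MulSemiringAction.toRingHom Γ (ResidueField B) σ).toMonoidHom z)
    rw [← mem_powers_iff_mem_zpowers] at h1
    obtain ⟨a, ha⟩ := h1
    refine ⟨a, ?_⟩
    have h2 := congrArg (Units.val) ha
    rw [Units.val_pow_eq_pow_val] at h2
    rw [h2]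
    rfl
  obtain ⟨a, ha⟩ := key g
  obtain ⟨b, hb⟩ := key h
  have hzz : g • h • (z : ResidueField B) = h • g • (z : ResidueField B) := by
    rw [hb, ha, smul_pow', smul_pow', ha, hb, ← pow_mul, ← pow_mul, mul_comm]
  by_cases hy : y = 0
  · simp only [hy, smul_zero]
  · have h1 := hz (Units.mk0 y hy)
    rw [← mem_powers_iff_mem_zpowers] at h1
    obtain ⟨k, hk⟩ := h1
    have h2 : y = (z : ResidueField B) ^ k := by
      have h3 := congrArg (Units.val) hk
      rw [Units.val_pow_eq_pow_val] at h3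
      rw [h3]
      rfl
    rw [h2, smul_pow', smul_pow', smul_pow', smul_pow', hzz]

/-- `Γ / Γ₀` is abelian: all commutators lie in the inertia group. -/
theorem commutator_mem_ramGroup_zero [Finite (ResidueField B)] (g h : Γ) :
    g * h * g⁻¹ * h⁻¹ ∈ ramGroup Γ B 0 := by
  intro x
  show (g * h * g⁻¹ * h⁻¹) • x - x ∈ ((maximalIdeal B) ^ (0 + 1)).toAddSubgroup
  rw [zero_add, pow_one]
  show (g * h * g⁻¹ * h⁻¹) • x - x ∈ maximalIdeal B
  rw [← residue_eq_zero_iff, map_sub, sub_eq_zero, IsLocalRing.ResidueField.residue_smul,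
    mul_smul, mul_smul, mul_smul, smul_comm_residueField g h, smul_inv_smul, smul_inv_smul]

section CommRule

variable {π : B} (hπ : Irreducible π)

include hπ in
/-- The commutator rule: for `σ ∈ Γ_{m+1} ∖ Γ_{m+2}` and `τ ∈ Γ₀`,
`τ σ τ⁻¹ σ⁻¹ ∈ Γ_{m+2} ↔ τ ^ (m+1) ∈ Γ₁`. -/
theorem conj_mul_inv_mem_ramGroup_iff_aux (hH : InertiaResidue Γ B) (m : ℕ) {σ τ : Γ}
    (hσ : σ ∈ ramGroup Γ B (m + 1)) (hσ' : σ ∉ ramGroup Γ B (m + 2))
    (hτ : τ ∈ ramGroup Γ B 0) :
    τ * σ * τ⁻¹ * σ⁻¹ ∈ ramGroup Γ B (m + 2) ↔ τ ^ (m + 1) ∈ ramGroup Γ B 1 := by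
  have hconj : τ * σ * τ⁻¹ ∈ ramGroup Γ B (m + 1) := (ramGroup_normal (m + 1)).conj_mem _ hσ τ
  set s : ramGroup Γ B (m + 1) := ⟨σ, hσ⟩ with hs
  set c : ramGroup Γ B (m + 1) := ⟨τ * σ * τ⁻¹, hconj⟩ with hc
  set t : ramGroup Γ B 0 := ⟨τ, hτ⟩ with ht
  have h1 : τ * σ * τ⁻¹ * σ⁻¹ = ((c * s⁻¹ : ramGroup Γ B (m + 1)) : Γ) := rfl
  have h2 : τ ^ (m + 1) = ((t ^ (m + 1) : ramGroup Γ B 0) : Γ) := rfl
  rw [h1, ← theta_eq_one_iff hπ hH m, h2, ← theta0_eq_one_iff hπ hH, map_mul, map_inv,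
    mul_inv_eq_one, map_pow]
  have ha : residue B (aOf hπ m σ) ≠ 0 := by
    intro h0
    apply hσ'
    have := (theta_eq_one_iff hπ hH m s).1 (by
      apply Multiplicative.toAdd.injective
      rw [theta_apply]
      exact h0)
    exact this
  have hconj_val : residue B (aOf hπ m (τ * σ * τ⁻¹)) =
      residue B (cOf hπ τ) ^ (m + 1) * residue B (aOf hπ m σ) :=
    theta_conj_of_mem hπ m hτ s
  constructor
  · intro h
    have h3 : residue B (aOf hπ m (τ * σ * τ⁻¹)) = residue B (aOf hπ m σ) :=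
      congrArg Multiplicative.toAdd h
    rw [hconj_val] at h3
    have h4 : residue B (cOf hπ τ) ^ (m + 1) = 1 := by
      have h5 : (residue B (cOf hπ τ) ^ (m + 1) - 1) * residue B (aOf hπ m σ) = 0 := by
        rw [sub_mul, one_mul, h3, sub_self]
      rcases mul_eq_zero.1 h5 with h6 | h6
      · exact sub_eq_zero.1 h6
      · exact absurd h6 ha
    apply Units.ext
    rw [Units.val_pow_eq_pow_val, theta0_apply, Units.val_one]
    exact h4
  · intro h
    have h4 : residue B (cOf hπ τ) ^ (m + 1) = 1 := by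
      have h5 := congrArg Units.val h
      rw [Units.val_pow_eq_pow_val, theta0_apply, Units.val_one] at h5
      exact h5
    apply Multiplicative.toAdd.injective
    rw [theta_apply, theta_apply]
    show residue B (aOf hπ m (τ * σ * τ⁻¹)) = residue B (aOf hπ m σ)
    rw [hconj_val, h4, one_mul]

end CommRule

/-- **Commutator rule** (Serre, Local Fields IV §2): under (H), for `n ≥ 1`,
`σ ∈ Γ_n ∖ Γ_{n+1}` and `τ ∈ Γ₀`:  `τ σ τ⁻¹ σ⁻¹ ∈ Γ_{n+1} ↔ τ ^ n ∈ Γ₁`. -/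
theorem conj_mul_inv_mem_ramGroup_iff (hH : InertiaResidue Γ B) {n : ℕ} (hn : 1 ≤ n) {σ τ : Γ}
    (hσ : σ ∈ ramGroup Γ B n) (hσ' : σ ∉ ramGroup Γ B (n + 1)) (hτ : τ ∈ ramGroup Γ B 0) :
    τ * σ * τ⁻¹ * σ⁻¹ ∈ ramGroup Γ B (n + 1) ↔ τ ^ n ∈ ramGroup Γ B 1 := by
  obtain ⟨π, hπ⟩ := IsDiscreteValuationRing.exists_irreducible B
  obtain ⟨m, rfl⟩ : ∃ m, n = m + 1 := ⟨n - 1, by omega⟩
  exact conj_mul_inv_mem_ramGroup_iff_aux hπ hH m hσ hσ' hτ

end Fermat.Agent.S56.H334
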