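import Fermat.Agent.S56.H334.RamTheta

/-!
# S56 / W-FLAT-SS, piece FL-RAM (helper334), part 3: Hilbert's formula for the different

AKLB setting: `A ⊆ B` integrally closed domains with fraction fields `K ⊆ L`, `L/K` finite
separable, `B` Dedekind and the integral closure of `A` in `L`, `Γ` a finite group with
`IsGaloisGroup Γ A B`, and `B = A[x]` monogenic.

* `eval_derivative_charpoly` : `f'(x) = ∏_{σ ≠ 1} (x - σ x)` for `f = ∏_σ (X - σ x)`.
* `minpoly_map_eq_charpoly` : the minimal polynomial of `x` over `A` is `∏_σ (X - σ x)`.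
* `differentIdeal_eq_span_prod` : `𝔇_{B/A} = (∏_{σ ≠ 1} (x - σ x))`.
* `lowIdx Γ B σ` : the lower index `i_Γ(σ) = min {n | σ ∉ Γ_n}` (so `σ ∈ Γ_n ↔ n < i_Γ(σ)`).
* `differentIdeal_eq_pow_sum_lowIdx` (**Hilbert's formula**, Serre LF IV §1 Prop. 4):
  for `B` a DVR, `𝔇_{B/A} = 𝔪_B ^ (∑_{σ ≠ 1} i_Γ(σ))`.
-/

set_option autoImplicit false
set_option linter.unusedSectionVars false
set_option linter.style.haveILetI false

open IsLocalRing Polynomial

namespace Fermat.Agent.S56.H334

section Charpoly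

variable {B : Type*} [CommRing B] {Γ : Type*} [Group Γ] [Fintype Γ] [MulSemiringAction Γ B]

/-- `f'(x) = ∏_{σ ≠ 1} (x - σ x)` for `f = ∏_σ (X - σ x)`. -/
theorem eval_derivative_charpoly [DecidableEq Γ] (x : B) :
    (derivative (MulSemiringAction.charpoly Γ x)).eval x =
      ∏ σ ∈ Finset.univ.erase (1 : Γ), (x - σ • x) := by
  rw [MulSemiringAction.charpoly_eq, derivative_prod_finset, eval_finsetSum]
  rw [Finset.sum_eq_single (1 : Γ)]
  · rw [eval_mul, eval_prod]
    simp
  · intro σ _ hσ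
    rw [eval_mul, eval_prod]
    have : (1 : Γ) ∈ Finset.univ.erase σ := Finset.mem_erase.2 ⟨hσ.symm, Finset.mem_univ _⟩
    rw [Finset.prod_eq_zero this (by simp), zero_mul]
  · intro h
    exact absurd (Finset.mem_univ _) h

end Charpoly

section Minpoly

variable (A B : Type*) [CommRing A] [CommRing B] [Algebra A B] [IsDomain A] [IsIntegrallyClosed A]
  [IsDomain B] [Module.IsTorsionFree A B] [Module.Finite A B]
  (Γ : Type*) [Group Γ] [Fintype Γ] [MulSemiringAction Γ B] [IsGaloisGroup Γ A B]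

/-- If `B = A[x]` and `Γ` is a Galois group of `B/A`, then the minimal polynomial of `x` is
`∏_σ (X - σ x)`. -/
theorem minpoly_map_eq_charpoly {x : B} (hx : Algebra.adjoin A {x} = ⊤) :
    (minpoly A x).map (algebraMap A B) = MulSemiringAction.charpoly Γ x := by
  classical
  have hint : IsIntegral A x := Algebra.IsIntegral.isIntegral x
  -- a monic lift of the characteristic polynomial
  obtain ⟨M, hM, hMdeg, hMmonic⟩ := Polynomial.lifts_and_natDegree_eq_and_monic
    (Algebra.IsInvariant.charpoly_mem_lifts A B Γ x) (MulSemiringAction.monic_charpoly Γ x)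
  have hroot : aeval x M = 0 := by
    rw [aeval_def, ← eval_map, hM, MulSemiringAction.eval_charpoly]
  have hdvd : minpoly A x ∣ M := minpoly.isIntegrallyClosed_dvd hint hroot
  -- degrees
  have hdeg1 : M.natDegree = Nat.card Γ := by
    rw [hMdeg, MulSemiringAction.charpoly_eq,
      natDegree_prod_of_monic _ _ (fun σ _ => monic_X_sub_C _)]
    simp
  have hdeg2 : (minpoly A x).natDegree = Module.finrank A B := by
    rw [← Algebra.adjoin.powerBasis'_dim hint, ← PowerBasis.finrank]
    exact LinearEquiv.finrank_eq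
      ((Subalgebra.equivOfEq _ _ hx).trans Subalgebra.topEquiv).toLinearEquiv
  have hcard : Nat.card Γ = Module.finrank A B := IsGaloisGroup.card_eq_finrank' Γ A B
  have heq : M = minpoly A x := by
    refine Polynomial.eq_of_monic_of_dvd_of_natDegree_le (minpoly.monic hint) hMmonic hdvd ?_
    rw [hdeg1, hdeg2, hcard]
  rw [← heq, hM]

end Minpoly

section Different

variable (A K L : Type*) {B : Type*} [CommRing A] [Field K] [CommRing B] [Field L]
  [Algebra A K] [Algebra B L] [Algebra A B] [Algebra K L] [Algebra A L]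
  [IsScalarTower A K L] [IsScalarTower A B L]
  [IsDomain A] [IsFractionRing A K] [IsFractionRing B L] [FiniteDimensional K L]

omit [IsDomain A] [IsFractionRing A K] in
/-- If `B = A[x]`, then `L = K[x]`. -/
theorem adjoin_field_eq_top [IsDomain B] {x : B} (hx : Algebra.adjoin A {x} = ⊤) :
    Algebra.adjoin K {algebraMap B L x} = ⊤ := by
  rw [eq_top_iff]
  intro y _
  have hB : ∀ b : B, algebraMap B L b ∈ Algebra.adjoin K {algebraMap B L x} := by
    intro b
    have hb : b ∈ Algebra.adjoin A {x} := by rw [hx]; exact Algebra.mem_top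
    induction hb using Algebra.adjoin_induction with
    | mem z hz =>
      rw [Set.mem_singleton_iff] at hz
      rw [hz]
      exact Algebra.subset_adjoin (Set.mem_singleton _)
    | algebraMap a =>
      rw [← IsScalarTower.algebraMap_apply A B L, IsScalarTower.algebraMap_apply A K L]
      exact Subalgebra.algebraMap_mem _ _
    | add y z _ _ hy hz =>
      rw [map_add]
      exact add_mem hy hz
    | mul y z _ _ hy hz =>
      rw [map_mul]
      exact mul_mem hy hz
  obtain ⟨b, s, hs, rfl⟩ := IsFractionRing.div_surjective (A := B) y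
  rw [div_eq_mul_inv]
  refine mul_mem (hB b) ?_
  have halg : IsAlgebraic K ((⟨algebraMap B L s, hB s⟩ :
      Algebra.adjoin K {algebraMap B L x}) : L) := Algebra.IsAlgebraic.isAlgebraic _
  exact Subalgebra.inv_mem_of_algebraic (Algebra.adjoin K {algebraMap B L x})
    (x := ⟨algebraMap B L s, hB s⟩) halg

variable [Algebra.IsSeparable K L] [IsIntegralClosure B A L] [IsIntegrallyClosed A]
  [IsDedekindDomain B] [Module.IsTorsionFree A B] [Module.Finite A B]
  (Γ : Type*) [Group Γ] [Fintype Γ] [MulSemiringAction Γ B] [IsGaloisGroup Γ A B]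

include K L in
/-- `𝔇_{B/A} = (∏_{σ ≠ 1} (x - σ x))` if `B = A[x]`. -/
theorem differentIdeal_eq_span_prod [DecidableEq Γ] {x : B} (hx : Algebra.adjoin A {x} = ⊤) :
    differentIdeal A B = Ideal.span {∏ σ ∈ Finset.univ.erase (1 : Γ), (x - σ • x)} := by
  have h := conductor_mul_differentIdeal A K L x (adjoin_field_eq_top A K L hx)
  rw [conductor_eq_top_of_adjoin_eq_top hx, Ideal.top_mul] at h
  rw [h, aeval_def, ← eval_map, ← derivative_map, minpoly_map_eq_charpoly A B Γ hx,
    eval_derivative_charpoly]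

end Different

/-! ### The lower index and Hilbert's formula -/

section LowIdx

variable {B : Type*} [CommRing B] [IsDomain B] [IsDiscreteValuationRing B]
variable {Γ : Type*} [Group Γ] [MulSemiringAction Γ B]

/-- The lower index `i_Γ(σ) = min {n | σ ∉ Γ_n}` (and `0` if `σ` lies in all `Γ_n`). -/
noncomputable def lowIdx (Γ : Type*) (B : Type*) [CommRing B] [IsDomain B]
    [IsDiscreteValuationRing B] [Group Γ] [MulSemiringAction Γ B] (σ : Γ) : ℕ :=
  open Classical in
  if h : ∃ n, σ ∉ ramGroup Γ B n then Nat.find h else 0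

theorem exists_not_mem_ramGroup [FaithfulSMul Γ B] {σ : Γ} (hσ : σ ≠ 1) :
    ∃ n, σ ∉ ramGroup Γ B n := by
  by_contra h
  rw [not_exists] at h
  exact hσ (eq_one_of_forall_mem_ramGroup fun n => not_not.1 (h n))

/-- `σ ∈ Γ_n ↔ n < i_Γ(σ)` for `σ ≠ 1`. -/
theorem mem_ramGroup_iff_lt_lowIdx [FaithfulSMul Γ B] {σ : Γ} (hσ : σ ≠ 1) (n : ℕ) :
    σ ∈ ramGroup Γ B n ↔ n < lowIdx Γ B σ := by
  classical
  have h := exists_not_mem_ramGroup (B := B) hσ
  rw [lowIdx, dif_pos h, Nat.lt_find_iff]
  constructor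
  · intro hn m hm
    rw [not_not]
    exact ramGroup_antitone hm hn
  · intro hn
    exact not_not.1 (hn n le_rfl)

theorem span_eq_maximalIdeal_pow {y : B} {k : ℕ} (h1 : y ∈ maximalIdeal B ^ k)
    (h2 : y ∉ maximalIdeal B ^ (k + 1)) : Ideal.span {y} = maximalIdeal B ^ k := by
  obtain ⟨π, hπ⟩ := IsDiscreteValuationRing.exists_irreducible B
  rw [mem_maximalIdeal_pow_iff_dvd hπ] at h1 h2
  obtain ⟨u, rfl⟩ := h1
  have hu : IsUnit u := by
    by_contra hu
    have : π ∣ u := by
      have hmem : u ∈ maximalIdeal B := (mem_maximalIdeal u).2 hu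
      rwa [hπ.maximalIdeal_eq, Ideal.mem_span_singleton] at hmem
    exact h2 (by rw [pow_succ]; exact mul_dvd_mul_left _ this)
  rw [hπ.maximalIdeal_eq, Ideal.span_singleton_pow]
  exact Ideal.span_singleton_eq_span_singleton.2 (associated_mul_unit_left _ _ hu)

variable {A : Type*} [CommRing A] [Algebra A B] [SMulCommClass Γ A B]

/-- If `B = A[x]`, then `(σ x - x) = 𝔪 ^ i_Γ(σ)` for `σ ≠ 1`. -/
theorem span_smul_sub_eq [FaithfulSMul Γ B] {x : B} (hx : Algebra.adjoin A {x} = ⊤) {σ : Γ}
    (hσ : σ ≠ 1) : Ideal.span {σ • x - x} = maximalIdeal B ^ lowIdx Γ B σ := by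
  apply span_eq_maximalIdeal_pow
  · rcases Nat.eq_zero_or_pos (lowIdx Γ B σ) with h0 | hpos
    · rw [h0, pow_zero, Ideal.one_eq_top]
      exact Submodule.mem_top (R := B) (M := B)
    · have h1 : σ ∈ ramGroup Γ B (lowIdx Γ B σ - 1) :=
        (mem_ramGroup_iff_lt_lowIdx hσ _).2 (by omega)
      have h2 := (mem_ramGroup_of_adjoin (A := A) hx).1 h1
      rwa [Nat.sub_add_cancel hpos] at h2
  · intro h
    have h1 : σ ∈ ramGroup Γ B (lowIdx Γ B σ) := (mem_ramGroup_of_adjoin (A := A) hx).2 h
    exact lt_irrefl _ ((mem_ramGroup_iff_lt_lowIdx hσ _).1 h1)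

end LowIdx

section Hilbert

variable (A K L : Type*) {B : Type*} [CommRing A] [Field K] [CommRing B] [Field L]
  [Algebra A K] [Algebra B L] [Algebra A B] [Algebra K L] [Algebra A L]
  [IsScalarTower A K L] [IsScalarTower A B L]
  [IsDomain A] [IsFractionRing A K] [IsFractionRing B L] [FiniteDimensional K L]
  [Algebra.IsSeparable K L] [IsIntegralClosure B A L] [IsIntegrallyClosed A]
  [IsDomain B] [IsDiscreteValuationRing B] [Module.IsTorsionFree A B] [Module.Finite A B]
  (Γ : Type*) [Group Γ] [Fintype Γ] [MulSemiringAction Γ B] [IsGaloisGroup Γ A B]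

include K L in
/-- **Hilbert's formula** (Serre, Local Fields IV §1 Prop. 4): if `B = A[x]` is a DVR and `Γ` is
a Galois group of `B/A`, then `𝔇_{B/A} = 𝔪_B ^ (∑_{σ ≠ 1} i_Γ(σ))`. -/
theorem differentIdeal_eq_pow_sum_lowIdx [DecidableEq Γ] {x : B}
    (hx : Algebra.adjoin A {x} = ⊤) :
    differentIdeal A B = maximalIdeal B ^ (∑ σ ∈ Finset.univ.erase (1 : Γ), lowIdx Γ B σ) := by
  haveI : FaithfulSMul Γ B := IsGaloisGroup.faithful A
  haveI : SMulCommClass Γ A B := IsGaloisGroup.commutes
  rw [differentIdeal_eq_span_prod A K L Γ hx, ← Ideal.prod_span_singleton,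
    ← Finset.prod_pow_eq_pow_sum]
  refine Finset.prod_congr rfl fun σ hσ => ?_
  have hσ1 : σ ≠ 1 := (Finset.mem_erase.1 hσ).1
  rw [← span_smul_sub_eq (A := A) hx hσ1, ← neg_sub, Ideal.span_singleton_neg]

end Hilbert

end Fermat.Agent.S56.H334
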