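import Fermat.Agent.S56.H334.RamBasic

/-!
# S56 / W-FLAT-SS, piece FL-RAM (helper334), part 7: the ramification index of DVRs

`R ⊆ S` discrete valuation rings (`algebraMap R S` injective and local).

* `exists_map_maximalIdeal_eq_pow` : `𝔪_R S = 𝔪_S ^ e` for some `e ≥ 1`.
* `mem_maximalIdeal_pow_iff_of_map_eq` : `x ∈ 𝔪_R ^ k ↔ x ∈ 𝔪_S ^ (e k)`.
* `map_maximalIdeal_pow_of_map_eq` : `(𝔪_R ^ k) S = 𝔪_S ^ (e k)`.
* `maximalIdeal_pow_injective` : `𝔪_S ^ a = 𝔪_S ^ b → a = b`.
* `card_ramGroup_zero_eq` : if `Γ` is a finite Galois group of `S/R` and the residue field of `R`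
  is finite, then `|Γ₀| = e`.
-/

set_option autoImplicit false
set_option linter.unusedSectionVars false

open IsLocalRing

namespace Fermat.Agent.S56.H334

section PowInj

variable {S : Type*} [CommRing S] [IsDomain S] [IsDiscreteValuationRing S]

theorem maximalIdeal_pow_injective {a b : ℕ} (h : maximalIdeal S ^ a = maximalIdeal S ^ b) :
    a = b := by
  obtain ⟨ϖ, hϖ⟩ := IsDiscreteValuationRing.exists_irreducible S
  rw [hϖ.maximalIdeal_eq, Ideal.span_singleton_pow, Ideal.span_singleton_pow,
    Ideal.span_singleton_eq_span_singleton] at h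
  obtain ⟨u, hu⟩ := h
  exact IsDiscreteValuationRing.unit_mul_pow_congr_pow hϖ hϖ u 1 a b (by
    rw [Units.val_one, one_mul, mul_comm]; exact hu)

theorem maximalIdeal_pow_le_iff {a b : ℕ} : maximalIdeal S ^ a ≤ maximalIdeal S ^ b ↔ b ≤ a := by
  constructor
  · intro h
    by_contra hlt
    push Not at hlt
    have h5 : maximalIdeal S ^ b ≤ maximalIdeal S ^ a := Ideal.pow_le_pow_right hlt.le
    exact absurd (maximalIdeal_pow_injective (le_antisymm h h5)) hlt.ne
  · exact fun h => Ideal.pow_le_pow_right h

end PowInj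

section RamIdx

variable {R : Type*} [CommRing R] [IsDomain R] [IsDiscreteValuationRing R]
variable {S : Type*} [CommRing S] [IsDomain S] [IsDiscreteValuationRing S]
  [Algebra R S] [FaithfulSMul R S] [IsLocalHom (algebraMap R S)]

variable (R S) in
theorem exists_map_maximalIdeal_eq_pow :
    ∃ e : ℕ, 0 < e ∧ Ideal.map (algebraMap R S) (maximalIdeal R) = maximalIdeal S ^ e := by
  obtain ⟨π, hπ⟩ := IsDiscreteValuationRing.exists_irreducible R
  obtain ⟨ϖ, hϖ⟩ := IsDiscreteValuationRing.exists_irreducible S
  have hπ0 : algebraMap R S π ≠ 0 := by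
    rw [Ne, FaithfulSMul.algebraMap_eq_zero_iff]; exact hπ.ne_zero
  obtain ⟨e, he⟩ := IsDiscreteValuationRing.associated_pow_irreducible hπ0 hϖ
  refine ⟨e, ?_, ?_⟩
  · rcases Nat.eq_zero_or_pos e with h0 | h0
    · exfalso
      rw [h0, pow_zero] at he
      have hu : IsUnit (algebraMap R S π) := he.symm.isUnit isUnit_one
      exact hπ.not_isUnit (isUnit_of_map_unit (algebraMap R S) π hu)
    · exact h0
  · rw [hπ.maximalIdeal_eq, Ideal.map_span, Set.image_singleton, hϖ.maximalIdeal_eq,
      Ideal.span_singleton_pow, Ideal.span_singleton_eq_span_singleton]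
    exact he

variable {e : ℕ} (he : Ideal.map (algebraMap R S) (maximalIdeal R) = maximalIdeal S ^ e)

include he in
theorem map_maximalIdeal_pow_of_map_eq (k : ℕ) :
    Ideal.map (algebraMap R S) (maximalIdeal R ^ k) = maximalIdeal S ^ (e * k) := by
  rw [Ideal.map_pow, he, ← pow_mul]

include he in
theorem ramIdx_pos_of_map_eq : 0 < e := by
  obtain ⟨e', he', h⟩ := exists_map_maximalIdeal_eq_pow R S
  rw [he] at h
  rw [maximalIdeal_pow_injective h]
  exact he'

include he in
theorem map_span_eq_pow_of_span_eq {y : R} {k : ℕ} (hy : Ideal.span {y} = maximalIdeal R ^ k) :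
    Ideal.span {algebraMap R S y} = maximalIdeal S ^ (e * k) := by
  rw [← map_maximalIdeal_pow_of_map_eq he, ← hy, Ideal.map_span, Set.image_singleton]

include he in
theorem mem_maximalIdeal_pow_iff_of_map_eq (x : R) (k : ℕ) :
    x ∈ maximalIdeal R ^ k ↔ algebraMap R S x ∈ maximalIdeal S ^ (e * k) := by
  constructor
  · intro h
    rw [← map_maximalIdeal_pow_of_map_eq he]
    exact Ideal.mem_map_of_mem _ h
  · intro h
    by_cases hx : x = 0
    · rw [hx]; exact Ideal.zero_mem _
    obtain ⟨π, hπ⟩ := IsDiscreteValuationRing.exists_irreducible R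
    obtain ⟨j, u, hu⟩ := IsDiscreteValuationRing.eq_unit_mul_pow_irreducible hx hπ
    have hspan : Ideal.span {x} = maximalIdeal R ^ j := by
      rw [hπ.maximalIdeal_eq, Ideal.span_singleton_pow, hu]
      exact Ideal.span_singleton_eq_span_singleton.2 (associated_unit_mul_left _ _ u.isUnit)
    have h2 := map_span_eq_pow_of_span_eq he hspan
    have h3 : maximalIdeal S ^ (e * j) ≤ maximalIdeal S ^ (e * k) := by
      rw [← h2, Ideal.span_singleton_le_iff_mem]
      exact h
    have h4 : e * k ≤ e * j := maximalIdeal_pow_le_iff.1 h3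
    have h6 : k ≤ j := Nat.le_of_mul_le_mul_left h4 (ramIdx_pos_of_map_eq he)
    have : Ideal.span {x} ≤ maximalIdeal R ^ k := by
      rw [hspan]; exact Ideal.pow_le_pow_right h6
    exact this (Ideal.mem_span_singleton_self x)

end RamIdx

section CardInertia

variable {R : Type*} [CommRing R] [IsDomain R] [IsDiscreteValuationRing R]
variable {S : Type*} [CommRing S] [IsDomain S] [IsDiscreteValuationRing S]
  [Algebra R S] [FaithfulSMul R S] [Module.Finite R S]
  {Γ : Type*} [Group Γ] [Finite Γ] [MulSemiringAction Γ S] [IsGaloisGroup Γ R S]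

theorem perfectField_residueField_of_finite [Finite (ResidueField R)] :
    PerfectField (maximalIdeal R).ResidueField := by
  have hbij := Ideal.bijective_algebraMap_quotient_residueField (maximalIdeal R)
  have : Finite (R ⧸ maximalIdeal R) := ‹Finite (ResidueField R)›
  have : Finite (maximalIdeal R).ResidueField :=
    Finite.of_surjective _ hbij.2
  infer_instance

/-- The order of the inertia group is the ramification index. -/
theorem card_ramGroup_zero_eq [Finite (ResidueField R)] {e : ℕ}
    (he : Ideal.map (algebraMap R S) (maximalIdeal R) = maximalIdeal S ^ e) :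
    Nat.card (ramGroup Γ S 0) = e := by
  have := perfectField_residueField_of_finite (R := R)
  have h1 := Ideal.card_inertia_eq_ramificationIdxIn (G := Γ) (maximalIdeal R) (maximalIdeal S)
  have h2 := Ideal.ramificationIdxIn_eq_ramificationIdx (maximalIdeal R) (maximalIdeal S) Γ
  have hne : maximalIdeal R ≠ ⊥ := IsDiscreteValuationRing.not_a_field R
  have h3 := Ideal.ramificationIdx'_eq_ramificationIdx (maximalIdeal R) (maximalIdeal S) hne
  have h4 : Ideal.ramificationIdx' (maximalIdeal R) (maximalIdeal S) = e := by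
    apply Ideal.ramificationIdx'_spec
    · rw [he]
    · rw [he, maximalIdeal_pow_le_iff]; omega
  have h5 : ramGroup Γ S 0 = (maximalIdeal S).inertia Γ := by
    unfold ramGroup
    rw [zero_add, pow_one]
  rw [h5, h1, h2, ← h3, h4]

end CardInertia

end Fermat.Agent.S56.H334
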