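import Mathlib

/-!
# S56 / W-FLAT-SS, piece FL-RAM (helper334), part 4: finite extensions of DVRs are monogenic

`A ⊆ B` discrete valuation rings, `B` finite over `A`, residue field extension separable
(e.g. `A` has finite residue field).  Then `B = A[x]` for some `x`
(Serre, Local Fields III §6 Prop. 12).  No completeness is needed.

* `exists_adjoin_eq_top_of_isSeparable` : the general statement.
* `finite_residueField_of_finite` : `κ_B` is finite if `κ_A` is.
* `exists_adjoin_eq_top_of_finite` : the statement for a finite residue field.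
-/

set_option autoImplicit false

open IsLocalRing Polynomial

namespace Fermat.Agent.S56.H334

section Monogenic

variable (A B : Type*) [CommRing A] [IsDomain A] [IsDiscreteValuationRing A]
  [CommRing B] [IsDomain B] [IsDiscreteValuationRing B] [Algebra A B] [Module.Finite A B]
  [FaithfulSMul A B]

/-- A uniformizer-valued polynomial expression exists: there are `x : B` and `g : A[X]` such that
`x` generates the residue field and `g(x)` is a uniformizer of `B`. -/
theorem exists_aeval_irreducible [Algebra.IsSeparable (ResidueField A) (ResidueField B)] :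
    ∃ (x : B) (g : A[X]), Algebra.adjoin (ResidueField A) {residue B x} = ⊤ ∧
      Irreducible (aeval x g) := by
  obtain ⟨β₀, hβ₀⟩ := Field.exists_primitive_element (ResidueField A) (ResidueField B)
  obtain ⟨x₀, hx₀⟩ := residue_surjective (R := B) β₀
  have hadj : Algebra.adjoin (ResidueField A) {β₀} = ⊤ := by
    rw [← IntermediateField.adjoin_simple_toSubalgebra_of_isAlgebraic (IsAlgebraic.of_finite _ _),
      hβ₀, IntermediateField.top_toSubalgebra]
  obtain ⟨g, hg⟩ := Polynomial.map_surjective _ (residue_surjective (R := A))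
    (minpoly (ResidueField A) β₀)
  obtain ⟨ϖ, hϖ⟩ := IsDiscreteValuationRing.exists_irreducible B
  -- residues of `g(x)` and `g'(x)`
  have hres : ∀ x : B, residue B x = β₀ → residue B (aeval x g) = 0 := by
    intro x hx
    rw [map_aeval_eq_aeval_map (ψ := residue B) (φ := residue A) rfl, hg, hx, minpoly.aeval]
  have hres' : ∀ x : B, residue B x = β₀ → IsUnit (aeval x (derivative g)) := by
    intro x hx
    apply (residue_ne_zero_iff_isUnit _).mp
    rw [map_aeval_eq_aeval_map (ψ := residue B) (φ := residue A) rfl, ← derivative_map, hg, hx]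
    exact (Algebra.IsSeparable.isSeparable _ _).aeval_derivative_ne_zero (minpoly.aeval _ _)
  have hmem : ∀ x : B, residue B x = β₀ → ϖ ∣ aeval x g := by
    intro x hx
    have h := hres x hx
    rw [residue_eq_zero_iff, hϖ.maximalIdeal_eq, Ideal.mem_span_singleton] at h
    exact h
  have hirr : ∀ y : B, ϖ ∣ y → ¬ ϖ ^ 2 ∣ y → Irreducible y := by
    rintro y ⟨u, rfl⟩ h2
    have hu : IsUnit u := by
      by_contra hu
      have hmem : u ∈ maximalIdeal B := (mem_maximalIdeal u).2 hu
      rw [hϖ.maximalIdeal_eq, Ideal.mem_span_singleton] at hmem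
      exact h2 (by rw [pow_two]; exact mul_dvd_mul_left _ hmem)
    exact (associated_mul_unit_left ϖ u hu).symm.irreducible hϖ
  by_cases h2 : ϖ ^ 2 ∣ aeval x₀ g
  · -- replace `x₀` by `x₀ + ϖ`
    have hx₁ : residue B (x₀ + ϖ) = β₀ := by
      rw [map_add, hx₀, (residue_eq_zero_iff ϖ).2 (by
        rw [hϖ.maximalIdeal_eq]; exact Ideal.mem_span_singleton_self ϖ), add_zero]
    refine ⟨x₀ + ϖ, g, by rw [hx₁]; exact hadj, hirr _ (hmem _ hx₁) ?_⟩
    intro h
    obtain ⟨k, hk⟩ := Polynomial.binomExpansion (g.map (algebraMap A B)) x₀ ϖ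
    rw [eval_map_algebraMap, eval_map_algebraMap, derivative_map, eval_map_algebraMap] at hk
    rw [hk] at h
    have h3 : ϖ ^ 2 ∣ aeval x₀ (derivative g) * ϖ := by
      have h4 := (Dvd.dvd.mul_left (dvd_refl (ϖ ^ 2)) k)
      have h5 := dvd_sub (dvd_sub h h4) h2
      have : aeval x₀ g + aeval x₀ (derivative g) * ϖ + k * ϖ ^ 2 - k * ϖ ^ 2 - aeval x₀ g
          = aeval x₀ (derivative g) * ϖ := by ring
      rwa [this] at h5
    rw [pow_two, mul_comm (aeval x₀ (derivative g))] at h3
    have h6 : ϖ ∣ aeval x₀ (derivative g) := (mul_dvd_mul_iff_left hϖ.ne_zero).1 h3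
    exact hϖ.not_isUnit (isUnit_of_dvd_unit h6 (hres' x₀ hx₀))
  · exact ⟨x₀, g, by rw [hx₀]; exact hadj, hirr _ (hmem _ hx₀) h2⟩

/-- **Monogenicity** (Serre, Local Fields III §6 Prop. 12): a finite extension of discrete
valuation rings with separable residue field extension is generated by one element. -/
theorem exists_adjoin_eq_top_of_isSeparable
    [Algebra.IsSeparable (ResidueField A) (ResidueField B)] :
    ∃ x : B, Algebra.adjoin A {x} = ⊤ := by
  obtain ⟨x, g, hx, hy⟩ := exists_aeval_irreducible A B
  refine ⟨x, ?_⟩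
  set C := Algebra.adjoin A {x} with hC
  set y := aeval x g with hy_def
  have hyC : y ∈ C := by
    rw [hC, Algebra.adjoin_singleton_eq_range_aeval]; exact ⟨g, rfl⟩
  -- step 1: `B = C + y B`
  have step1 : ∀ b : B, ∃ c ∈ C, ∃ b' : B, b = c + y * b' := by
    intro b
    rw [Algebra.adjoin_singleton_eq_range_aeval, AlgHom.range_eq_top] at hx
    obtain ⟨qb, hqb⟩ := hx (residue B b)
    obtain ⟨q, rfl⟩ := Polynomial.map_surjective _ (residue_surjective (R := A)) qb
    rw [← map_aeval_eq_aeval_map (ψ := residue B) (φ := residue A) rfl] at hqb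
    have hmem : b - aeval x q ∈ maximalIdeal B := by
      rw [← residue_eq_zero_iff, map_sub, hqb, sub_self]
    rw [hy.maximalIdeal_eq, Ideal.mem_span_singleton] at hmem
    obtain ⟨b', hb'⟩ := hmem
    refine ⟨aeval x q, ?_, b', by rw [← hb']; ring⟩
    rw [hC, Algebra.adjoin_singleton_eq_range_aeval]; exact ⟨q, rfl⟩
  -- step 2: `B = C + y ^ n B`
  have step2 : ∀ (n : ℕ) (b : B), ∃ c ∈ C, ∃ b' : B, b = c + y ^ n * b' := by
    intro n
    induction n with
    | zero => intro b; exact ⟨0, C.zero_mem, b, by simp⟩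
    | succ n ih =>
      intro b
      obtain ⟨c, hc, b', rfl⟩ := ih b
      obtain ⟨c', hc', b'', rfl⟩ := step1 b'
      exact ⟨c + y ^ n * c', C.add_mem hc (C.mul_mem (C.pow_mem hyC n) hc'), b'', by ring⟩
  -- step 3: `y ^ e ∈ 𝔪_A B`
  obtain ⟨π, hπ⟩ := IsDiscreteValuationRing.exists_irreducible A
  have hπ0 : algebraMap A B π ≠ 0 := by
    rw [Ne, FaithfulSMul.algebraMap_eq_zero_iff]; exact hπ.ne_zero
  obtain ⟨e, he⟩ := IsDiscreteValuationRing.associated_pow_irreducible hπ0 hy
  obtain ⟨u, hu⟩ := he
  -- Nakayama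
  refine eq_top_iff.mpr <| Submodule.le_of_le_smul_of_le_jacobson_bot
    (Module.finite_def.mp inferInstance) (IsLocalRing.maximalIdeal_le_jacobson ⊥)
    (?_ : ⊤ ≤ (Algebra.adjoin A {x}).toSubmodule ⊔ maximalIdeal A • ⊤)
  intro b _
  obtain ⟨c, hc, b', rfl⟩ := step2 e b
  rw [Ideal.smul_top_eq_map]
  refine Submodule.mem_sup.mpr ⟨c, hc, y ^ e * b', ?_, rfl⟩
  rw [Submodule.restrictScalars_mem, ← hu, mul_assoc]
  exact Ideal.mul_mem_right _ _ (Ideal.mem_map_of_mem _ (by
    rw [hπ.maximalIdeal_eq]; exact Ideal.mem_span_singleton_self π))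

/-- The residue field of `B` is finite if that of `A` is. -/
theorem finite_residueField_of_finite [Finite (ResidueField A)] : Finite (ResidueField B) :=
  Module.finite_of_finite (ResidueField A)

/-- **Monogenicity** for a finite residue field. -/
theorem exists_adjoin_eq_top_of_finite [Finite (ResidueField A)] :
    ∃ x : B, Algebra.adjoin A {x} = ⊤ := by
  have : Finite (ResidueField B) := finite_residueField_of_finite A B
  have : Algebra.IsSeparable (ResidueField A) (ResidueField B) :=
    Algebra.IsAlgebraic.isSeparable_of_perfectField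
  exact exists_adjoin_eq_top_of_isSeparable A B

end Monogenic

end Fermat.Agent.S56.H334
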