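import Fermat.Agent.S56.H334.RamFixed
import Fermat.Agent.S56.H334.RamIdx
import Fermat.Agent.S56.H334.RamComm
import Fermat.Agent.S56.H334.RamHilbert
import Fermat.Agent.S56.H334.RamMono

/-!
# S56 / W-FLAT-SS, piece FL-RAM (helper334), part 8: ramification groups of a quotient

Setting (that of `FL.RCDatum`): `A ⊆ B` discrete valuation rings, `B` finite over `A`, the residue
field of `A` finite, `Γ` a finite group acting faithfully on `B` with `B^Γ = A`; `N ⊴ Γ`.
`B^N = FixedPoints.subalgebra A B N` is a DVR with an action of `Γ ⧸ N`.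

* `isGaloisGroup_of_datum`, `isGaloisGroup_quotient`, `faithfulSMul_quotient`.
* `quotRamGroup A B Γ N n` : the `n`-th ramification group of `Γ ⧸ N` acting on `B^N`, pulled back
  to `Γ`;  `quotLowIdx A B Γ N σ = i_{Γ/N}(σ N)`.
* `mem_quotRamGroup_iff_lowIdx` : `σ ∈ F N n ↔ σ ∈ N ∨ n + 1 ≤ i N σ`.
* `ramGroup_zero_le_quotRamGroup`, `ramGroup_one_le_quotRamGroup`, `quotRamGroup_one_inf_le`.
* `quot_conj_mul_inv_mem_iff` : the commutator rule for `Γ ⧸ N`.
* `quotRamGroup_bot`, `quotLowIdx_bot` : for `N = ⊥` one recovers `Γ_n` and `i_Γ`.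
-/

set_option autoImplicit false
set_option linter.unusedSectionVars false
set_option linter.style.haveILetI false

open IsLocalRing

namespace Fermat.Agent.S56.H334

section Quot

variable (A B Γ : Type*) [CommRing A] [IsDomain A] [IsDiscreteValuationRing A]
  [CommRing B] [IsDomain B] [IsDiscreteValuationRing B] [Algebra A B] [Module.Finite A B]
  [FaithfulSMul A B] [Group Γ] [Finite Γ] [MulSemiringAction Γ B] [SMulCommClass Γ A B]
  [Algebra.IsInvariant A B Γ] [FaithfulSMul Γ B]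
  (N : Subgroup Γ) [N.Normal]

theorem isGaloisGroup_of_datum : IsGaloisGroup Γ A B :=
  ⟨inferInstance, inferInstance, inferInstance⟩

theorem quot_smul_coe (σ : Γ) (x : FixedPoints.subalgebra A B N) :
    (((σ : Γ ⧸ N) • x : FixedPoints.subalgebra A B N) : B) = σ • (x : B) := rfl

/-- Galois theory: an element of `Γ` fixing `B^N` pointwise lies in `N`. -/
theorem mem_of_forall_smul_fixed {σ : Γ}
    (h : ∀ x : FixedPoints.subalgebra A B N, σ • (x : B) = x) : σ ∈ N := by
  haveI := isGaloisGroup_of_datum A B Γ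
  have h1 := IsGaloisGroup.fixingSubgroup_range_algebraMap Γ A (FixedPoints.subalgebra A B N) B N
  rw [← h1, mem_fixingSubgroup_iff]
  rintro _ ⟨x, rfl⟩
  exact h x

theorem faithfulSMul_quotient : FaithfulSMul (Γ ⧸ N) (FixedPoints.subalgebra A B N) := by
  refine ⟨fun {g₁ g₂} h => ?_⟩
  induction g₁ using QuotientGroup.induction_on with
  | H σ₁ =>
  induction g₂ using QuotientGroup.induction_on with
  | H σ₂ =>
  rw [QuotientGroup.eq]
  apply mem_of_forall_smul_fixed A B Γ N
  intro x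
  have h2 := congrArg Subtype.val (h x)
  rw [quot_smul_coe, quot_smul_coe] at h2
  rw [mul_smul, ← h2, inv_smul_smul]

theorem isGaloisGroup_quotient : IsGaloisGroup (Γ ⧸ N) A (FixedPoints.subalgebra A B N) :=
  ⟨faithfulSMul_quotient A B Γ N, inferInstance, inferInstance⟩

/-- `F N n`: the `n`-th ramification group of `Γ ⧸ N` acting on `B^N`, pulled back to `Γ`. -/
noncomputable def quotRamGroup (n : ℕ) : Subgroup Γ :=
  haveI := isDiscreteValuationRing_fixedPoints A B N
  (ramGroup (Γ ⧸ N) (FixedPoints.subalgebra A B N) n).comap (QuotientGroup.mk' N)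

/-- `i N σ = i_{Γ/N}(σ N)`. -/
noncomputable def quotLowIdx (σ : Γ) : ℕ :=
  haveI := isDiscreteValuationRing_fixedPoints A B N
  lowIdx (Γ ⧸ N) (FixedPoints.subalgebra A B N) (σ : Γ ⧸ N)

theorem mem_quotRamGroup_iff {n : ℕ} {σ : Γ} :
    haveI := isDiscreteValuationRing_fixedPoints A B N
    σ ∈ quotRamGroup A B Γ N n ↔
      (σ : Γ ⧸ N) ∈ ramGroup (Γ ⧸ N) (FixedPoints.subalgebra A B N) n :=
  Iff.rfl

theorem quotRamGroup_normal (n : ℕ) : (quotRamGroup A B Γ N n).Normal := by
  haveI := isDiscreteValuationRing_fixedPoints A B N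
  exact Subgroup.Normal.comap (ramGroup_normal n) _

theorem le_quotRamGroup (n : ℕ) : N ≤ quotRamGroup A B Γ N n := by
  haveI := isDiscreteValuationRing_fixedPoints A B N
  intro σ hσ
  rw [mem_quotRamGroup_iff, (QuotientGroup.eq_one_iff σ).2 hσ]
  exact Subgroup.one_mem _

theorem quotRamGroup_antitone {m n : ℕ} (h : m ≤ n) :
    quotRamGroup A B Γ N n ≤ quotRamGroup A B Γ N m := by
  haveI := isDiscreteValuationRing_fixedPoints A B N
  exact Subgroup.comap_mono (ramGroup_antitone h)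

/-- `σ ∈ F N n ↔ σ ∈ N ∨ n + 1 ≤ i N σ`. -/
theorem mem_quotRamGroup_iff_lowIdx (n : ℕ) (σ : Γ) :
    σ ∈ quotRamGroup A B Γ N n ↔ σ ∈ N ∨ n + 1 ≤ quotLowIdx A B Γ N σ := by
  haveI := isDiscreteValuationRing_fixedPoints A B N
  haveI := faithfulSMul_quotient A B Γ N
  by_cases hσ : σ ∈ N
  · exact ⟨fun _ => Or.inl hσ, fun _ => le_quotRamGroup A B Γ N n hσ⟩
  · have hne : (σ : Γ ⧸ N) ≠ 1 := fun h => hσ ((QuotientGroup.eq_one_iff σ).1 h)
    rw [mem_quotRamGroup_iff, mem_ramGroup_iff_lt_lowIdx hne]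
    constructor
    · intro h; exact Or.inr h
    · rintro (h | h)
      · exact absurd h hσ
      · exact h

/-- `Γ₀ ≤ F N 0`. -/
theorem ramGroup_zero_le_quotRamGroup : ramGroup Γ B 0 ≤ quotRamGroup A B Γ N 0 := by
  haveI := isDiscreteValuationRing_fixedPoints A B N
  intro σ hσ
  rw [mem_quotRamGroup_iff]
  intro x
  show (σ : Γ ⧸ N) • x - x ∈ ((maximalIdeal (FixedPoints.subalgebra A B N)) ^ (0 + 1))
  rw [zero_add, pow_one, mem_maximalIdeal, mem_nonunits_iff, fixedPoints_isUnit_iff]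
  have h1 : σ • (x : B) - x ∈ maximalIdeal B := by
    have := hσ (x : B)
    rw [zero_add, pow_one] at this
    exact this
  exact (mem_maximalIdeal _).1 h1

end Quot

/-! ### Generalities -/

section General

variable {B : Type*} [CommRing B] [IsDomain B] [IsDiscreteValuationRing B]
variable {Γ : Type*} [Group Γ] [MulSemiringAction Γ B]

/-- If `σ ∈ Γ₀` and `σ ^ (p ^ k) ∈ Γ₁` (`p` the residue characteristic), then `σ ∈ Γ₁`. -/
theorem mem_ramGroup_one_of_pow_mem (hH : InertiaResidue Γ B) (p : ℕ) [hp : Fact p.Prime]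
    [CharP (ResidueField B) p] {σ : Γ} (hσ : σ ∈ ramGroup Γ B 0) (k : ℕ)
    (h : σ ^ (p ^ k) ∈ ramGroup Γ B 1) : σ ∈ ramGroup Γ B 1 := by
  obtain ⟨π, hπ⟩ := IsDiscreteValuationRing.exists_irreducible B
  set t : ramGroup Γ B 0 := ⟨σ, hσ⟩ with ht
  have h1 : theta0 hπ (t ^ (p ^ k)) = 1 := (theta0_eq_one_iff hπ hH (t ^ (p ^ k))).2 h
  rw [map_pow] at h1
  have h2 : ((theta0 hπ t : (ResidueField B)ˣ) : ResidueField B) ^ (p ^ k) = 1 := by
    rw [← Units.val_pow_eq_pow_val, h1, Units.val_one]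
  have h3 : ((theta0 hπ t : (ResidueField B)ˣ) : ResidueField B) = 1 := by
    have h4 : (((theta0 hπ t : (ResidueField B)ˣ) : ResidueField B) - 1) ^ (p ^ k) = 0 := by
      rw [sub_pow_char_pow, one_pow, h2, sub_self]
    exact sub_eq_zero.1 (pow_eq_zero_iff (pow_ne_zero _ hp.out.ne_zero) |>.1 h4)
  exact (theta0_eq_one_iff hπ hH t).1 (Units.ext h3)

variable {B' : Type*} [CommRing B'] [IsDomain B'] [IsDiscreteValuationRing B']
variable {Γ' : Type*} [Group Γ'] [MulSemiringAction Γ' B']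

theorem lowIdx_eq_of_forall_mem_iff {σ : Γ} {σ' : Γ'}
    (h : ∀ n, σ ∈ ramGroup Γ B n ↔ σ' ∈ ramGroup Γ' B' n) :
    lowIdx Γ B σ = lowIdx Γ' B' σ' := by
  classical
  unfold lowIdx
  by_cases hex : ∃ n, σ ∉ ramGroup Γ B n
  · have hex' : ∃ n, σ' ∉ ramGroup Γ' B' n := by
      obtain ⟨n, hn⟩ := hex
      exact ⟨n, fun h' => hn ((h n).2 h')⟩
    rw [dif_pos hex, dif_pos hex']
    apply le_antisymm
    · apply Nat.find_min'
      rw [h]
      exact Nat.find_spec hex'
    · apply Nat.find_min'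
      rw [← h]
      exact Nat.find_spec hex
  · have hex' : ¬ ∃ n, σ' ∉ ramGroup Γ' B' n := by
      rintro ⟨n, hn⟩
      exact hex ⟨n, fun h' => hn ((h n).1 h')⟩
    rw [dif_neg hex, dif_neg hex']

end General

/-! ### The residue characteristic -/

section Residue

variable (A B : Type*) [CommRing A] [IsDomain A] [IsDiscreteValuationRing A]
  [CommRing B] [IsDomain B] [IsDiscreteValuationRing B] [Algebra A B] [Module.Finite A B]
  [FaithfulSMul A B]

theorem charP_residueField_of_charP (p : ℕ) [CharP (ResidueField A) p] :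
    CharP (ResidueField B) p :=
  charP_of_injective_algebraMap (algebraMap (ResidueField A) (ResidueField B)).injective p

end Residue

/-! ### Wild inertia of the quotient, commutator rule -/

section QuotWild

variable (A B Γ : Type*) [CommRing A] [IsDomain A] [IsDiscreteValuationRing A]
  [CommRing B] [IsDomain B] [IsDiscreteValuationRing B] [Algebra A B] [Module.Finite A B]
  [FaithfulSMul A B] [Group Γ] [Finite Γ] [MulSemiringAction Γ B] [SMulCommClass Γ A B]
  [Algebra.IsInvariant A B Γ] [FaithfulSMul Γ B]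
  (N : Subgroup Γ) [N.Normal] [Finite (ResidueField A)]

include A in
/-- Hypothesis (H) holds for `Γ` acting on `B`. -/
theorem inertiaResidue_of_datum : InertiaResidue Γ B := by
  haveI := finite_residueField_of_finite A B
  exact inertiaResidue_of_finite

/-- Hypothesis (H) holds for `Γ ⧸ N` acting on `B^N`. -/
theorem inertiaResidue_quotient :
    haveI := isDiscreteValuationRing_fixedPoints A B N
    InertiaResidue (Γ ⧸ N) (FixedPoints.subalgebra A B N) := by
  haveI := isDiscreteValuationRing_fixedPoints A B N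
  haveI := finite_fixedPoints A B N
  haveI := finite_residueField_of_finite A (FixedPoints.subalgebra A B N)
  exact inertiaResidue_of_finite

variable (p : ℕ) [hp : Fact p.Prime] [CharP (ResidueField A) p]

include A in
/-- `Γ₁` is a `p`-group. -/
theorem isPGroup_ramGroup_one_of_datum : IsPGroup p (ramGroup Γ B 1) := by
  haveI := charP_residueField_of_charP A B p
  exact isPGroup_ramGroup_one (inertiaResidue_of_datum A B Γ) p

include p in
/-- `Γ₁ ≤ F N 1`. -/
theorem ramGroup_one_le_quotRamGroup : ramGroup Γ B 1 ≤ quotRamGroup A B Γ N 1 := by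
  haveI := isDiscreteValuationRing_fixedPoints A B N
  haveI := finite_fixedPoints A B N
  haveI := charP_residueField_of_charP A (FixedPoints.subalgebra A B N) p
  intro σ hσ
  obtain ⟨k, hk⟩ := isPGroup_ramGroup_one_of_datum A B Γ p ⟨σ, hσ⟩
  have hk' : σ ^ (p ^ k) = 1 := congrArg Subtype.val hk
  have h0 : (σ : Γ ⧸ N) ∈ ramGroup (Γ ⧸ N) (FixedPoints.subalgebra A B N) 0 :=
    ramGroup_zero_le_quotRamGroup A B Γ N (ramGroup_antitone (Nat.zero_le 1) hσ)
  rw [mem_quotRamGroup_iff]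
  apply mem_ramGroup_one_of_pow_mem (inertiaResidue_quotient A B Γ N) p h0 k
  rw [← QuotientGroup.mk_pow, hk']
  exact Subgroup.one_mem _

include p in
/-- `F N 1 ∩ Γ₀ ≤ Γ₁` if `N ≤ Γ₁`. -/
theorem quotRamGroup_one_inf_le (hN : N ≤ ramGroup Γ B 1) :
    quotRamGroup A B Γ N 1 ⊓ ramGroup Γ B 0 ≤ ramGroup Γ B 1 := by
  haveI := isDiscreteValuationRing_fixedPoints A B N
  haveI := finite_fixedPoints A B N
  haveI := charP_residueField_of_charP A (FixedPoints.subalgebra A B N) p
  haveI := charP_residueField_of_charP A B p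
  haveI := faithfulSMul_quotient A B Γ N
  rintro σ ⟨h1, h0⟩
  have hpg : IsPGroup p (ramGroup (Γ ⧸ N) (FixedPoints.subalgebra A B N) 1) :=
    isPGroup_ramGroup_one (inertiaResidue_quotient A B Γ N) p
  obtain ⟨k, hk⟩ := hpg ⟨(σ : Γ ⧸ N), h1⟩
  have hk' : (σ : Γ ⧸ N) ^ (p ^ k) = 1 := congrArg Subtype.val hk
  rw [← QuotientGroup.mk_pow, QuotientGroup.eq_one_iff] at hk'
  exact mem_ramGroup_one_of_pow_mem (inertiaResidue_of_datum A B Γ) p h0 k (hN hk')

omit hp [CharP (ResidueField A) p] in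
/-- The commutator rule for the quotient `Γ ⧸ N`. -/
theorem quot_conj_mul_inv_mem_iff {n : ℕ} (hn : 1 ≤ n) {σ τ : Γ}
    (hσ : σ ∈ quotRamGroup A B Γ N n) (hσ' : σ ∉ quotRamGroup A B Γ N (n + 1))
    (hτ : τ ∈ ramGroup Γ B 0) :
    τ * σ * τ⁻¹ * σ⁻¹ ∈ quotRamGroup A B Γ N (n + 1) ↔ τ ^ n ∈ quotRamGroup A B Γ N 1 := by
  haveI := isDiscreteValuationRing_fixedPoints A B N
  have hτ' := ramGroup_zero_le_quotRamGroup A B Γ N hτ
  rw [mem_quotRamGroup_iff] at hσ hσ' hτ' ⊢
  rw [mem_quotRamGroup_iff]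
  have := conj_mul_inv_mem_ramGroup_iff (inertiaResidue_quotient A B Γ N) hn hσ hσ' hτ'
  simpa using this

include A in
/-- `Γ / Γ₀` is abelian. -/
theorem commutator_mem_ramGroup_zero_of_datum (g h : Γ) :
    g * h * g⁻¹ * h⁻¹ ∈ ramGroup Γ B 0 := by
  haveI := finite_residueField_of_finite A B
  exact commutator_mem_ramGroup_zero g h

end QuotWild

end Fermat.Agent.S56.H334
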