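import Mathlib

/-!
# S56 / W-FLAT-SS, piece FL-RAM (helper334), part 1: lower ramification groups, abstractly

Setting: a discrete valuation ring `B` and a group `Γ` acting on `B` by ring automorphisms
(`MulSemiringAction Γ B`).  No fields, no completeness.

* `ramGroup Γ B n` : the `n`-th lower ramification group `Γ_n = {σ | ∀ x, σ x - x ∈ 𝔪 ^ (n+1)}`
  (`Γ_0` = inertia, `Γ_1` = wild inertia); Mathlib's `AddSubgroup.inertia` of `𝔪 ^ (n+1)`.
* `ramGroup_normal`, `ramGroup_antitone`.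
* `mem_ramGroup_iff_dvd` : membership in terms of divisibility by powers of a uniformizer.
* `mem_ramGroup_of_adjoin` : if `B = A[x]` with `A` fixed by `Γ`, then
  `σ ∈ Γ_n ↔ σ x - x ∈ 𝔪 ^ (n+1)`   (Serre, Local Fields IV §1 Lemma 1).
* `exists_ramGroup_eq_bot` : for a finite group acting faithfully, `Γ_n = 1` for `n ≫ 0`.
-/

set_option autoImplicit false
set_option linter.unusedSectionVars false

open IsLocalRing

namespace Fermat.Agent.S56.H334

variable {B : Type*} [CommRing B] [IsDomain B] [IsDiscreteValuationRing B]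
variable {Γ : Type*} [Group Γ] [MulSemiringAction Γ B]

/-! ### Automorphisms and uniformizers -/

theorem irreducible_smul (g : Γ) {π : B} (hπ : Irreducible π) : Irreducible (g • π) :=
  (MulEquiv.irreducible_iff (MulSemiringAction.toRingEquiv Γ B g).toMulEquiv).2 hπ

theorem associated_smul (g : Γ) {π : B} (hπ : Irreducible π) : Associated (g • π) π :=
  IsDiscreteValuationRing.associated_of_irreducible B (irreducible_smul g hπ) hπ

theorem dvd_smul_of_dvd (g : Γ) {a b : B} (h : a ∣ b) : g • a ∣ g • b := by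
  obtain ⟨c, rfl⟩ := h
  exact ⟨g • c, smul_mul' g a c⟩

theorem pow_dvd_smul_iff (g : Γ) {π : B} (hπ : Irreducible π) (n : ℕ) (x : B) :
    π ^ n ∣ g • x ↔ π ^ n ∣ x := by
  have key : ∀ (h : Γ) (y : B), π ^ n ∣ y → π ^ n ∣ h • y := by
    intro h y hy
    have h1 : h • (π ^ n) ∣ h • y := dvd_smul_of_dvd h hy
    rw [smul_pow'] at h1
    exact ((associated_smul h hπ).pow_pow (n := n)).symm.dvd.trans h1
  constructor
  · intro h
    have := key g⁻¹ _ h
    rwa [inv_smul_smul] at this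
  · exact key g x

theorem mem_maximalIdeal_pow_iff_dvd {π : B} (hπ : Irreducible π) (n : ℕ) (x : B) :
    x ∈ maximalIdeal B ^ n ↔ π ^ n ∣ x := by
  rw [hπ.maximalIdeal_eq, Ideal.span_singleton_pow, Ideal.mem_span_singleton]

theorem smul_mem_maximalIdeal_pow_iff (g : Γ) (n : ℕ) (x : B) :
    g • x ∈ maximalIdeal B ^ n ↔ x ∈ maximalIdeal B ^ n := by
  obtain ⟨π, hπ⟩ := IsDiscreteValuationRing.exists_irreducible B
  rw [mem_maximalIdeal_pow_iff_dvd hπ, mem_maximalIdeal_pow_iff_dvd hπ, pow_dvd_smul_iff g hπ]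

/-! ### Ramification groups -/

/-- The `n`-th lower ramification group `Γ_n` (`n ≥ 0`): the elements acting trivially on
`B / 𝔪 ^ (n+1)`. -/
def ramGroup (Γ : Type*) (B : Type*) [CommRing B] [IsDomain B] [IsDiscreteValuationRing B]
    [Group Γ] [MulSemiringAction Γ B] (n : ℕ) : Subgroup Γ :=
  (maximalIdeal B ^ (n + 1)).toAddSubgroup.inertia Γ

theorem mem_ramGroup_iff {σ : Γ} {n : ℕ} :
    σ ∈ ramGroup Γ B n ↔ ∀ x : B, σ • x - x ∈ maximalIdeal B ^ (n + 1) :=
  Iff.rfl

theorem mem_ramGroup_iff_dvd {π : B} (hπ : Irreducible π) {σ : Γ} {n : ℕ} :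
    σ ∈ ramGroup Γ B n ↔ ∀ x : B, π ^ (n + 1) ∣ σ • x - x := by
  rw [mem_ramGroup_iff]
  exact forall_congr' fun x => mem_maximalIdeal_pow_iff_dvd hπ (n + 1) _

theorem ramGroup_antitone : Antitone (ramGroup Γ B) := by
  intro m n hmn σ hσ x
  exact Ideal.pow_le_pow_right (Nat.succ_le_succ hmn) (hσ x)

instance ramGroup_normal (n : ℕ) : (ramGroup Γ B n).Normal := by
  constructor
  intro σ hσ g x
  have h1 : (g * σ * g⁻¹) • x - x = g • (σ • (g⁻¹ • x) - g⁻¹ • x) := by
    rw [smul_sub, smul_inv_smul, mul_smul, mul_smul]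
  show (g * σ * g⁻¹) • x - x ∈ maximalIdeal B ^ (n + 1)
  rw [h1, smul_mem_maximalIdeal_pow_iff]
  exact hσ _

/-! ### Generators -/

section Adjoin

variable {A : Type*} [CommRing A] [Algebra A B] [SMulCommClass Γ A B]

omit [IsDomain B] [IsDiscreteValuationRing B] in
/-- `σ y - y` is divisible by `σ x - x` for every `y ∈ A[x]` (`A` fixed by `σ`). -/
theorem sub_dvd_smul_sub_of_mem_adjoin (σ : Γ) (x : B) {y : B}
    (hy : y ∈ Algebra.adjoin A {x}) : σ • x - x ∣ σ • y - y := by
  induction hy using Algebra.adjoin_induction with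
  | mem z hz =>
    rw [Set.mem_singleton_iff] at hz
    rw [hz]
  | algebraMap a =>
    rw [smul_algebraMap, sub_self]
    exact dvd_zero _
  | add y z _ _ hy hz =>
    have : σ • (y + z) - (y + z) = (σ • y - y) + (σ • z - z) := by
      rw [smul_add]; ring
    rw [this]
    exact dvd_add hy hz
  | mul y z _ _ hy hz =>
    have : σ • (y * z) - y * z = (σ • y - y) * σ • z + y * (σ • z - z) := by
      rw [smul_mul']; ring
    rw [this]
    exact dvd_add (Dvd.dvd.mul_right hy _) (Dvd.dvd.mul_left hz _)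

/-- **Serre, Local Fields IV §1 Lemma 1.**  If `B = A[x]`, then `σ ∈ Γ_n ↔ σ x - x ∈ 𝔪^(n+1)`. -/
theorem mem_ramGroup_of_adjoin {x : B} (hx : Algebra.adjoin A {x} = ⊤) {σ : Γ} {n : ℕ} :
    σ ∈ ramGroup Γ B n ↔ σ • x - x ∈ maximalIdeal B ^ (n + 1) := by
  constructor
  · intro h
    exact h x
  · intro h y
    have hy : y ∈ Algebra.adjoin A {x} := by rw [hx]; exact Algebra.mem_top
    obtain ⟨c, hc⟩ := sub_dvd_smul_sub_of_mem_adjoin (A := A) σ x hy
    rw [hc]
    exact Ideal.mul_mem_right _ _ h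

end Adjoin

/-! ### Faithful actions of finite groups -/

theorem eq_one_of_forall_mem_ramGroup [FaithfulSMul Γ B] {σ : Γ}
    (h : ∀ n, σ ∈ ramGroup Γ B n) : σ = 1 := by
  apply FaithfulSMul.eq_of_smul_eq_smul (α := B)
  intro x
  rw [one_smul]
  have h0 : σ • x - x ∈ (⨅ n : ℕ, maximalIdeal B ^ n : Ideal B) := by
    rw [Ideal.mem_iInf]
    intro n
    exact Ideal.pow_le_pow_right (Nat.le_succ n) (h n x)
  rw [Ideal.iInf_pow_eq_bot_of_isLocalRing (maximalIdeal B) (IsLocalRing.maximalIdeal.isMaximal B).ne_top,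
    Ideal.mem_bot, sub_eq_zero] at h0
  exact h0

theorem exists_ramGroup_eq_bot [Finite Γ] [FaithfulSMul Γ B] : ∃ n, ramGroup Γ B n = ⊥ := by
  classical
  by_contra hne
  rw [not_exists] at hne
  -- every `Γ_n` contains a non-trivial element; by finiteness some element lies in all of them
  have h1 : ∀ n, ∃ σ : Γ, σ ≠ 1 ∧ σ ∈ ramGroup Γ B n := by
    intro n
    obtain ⟨σ, hσ1⟩ := (Subgroup.ne_bot_iff_exists_ne_one).1 (hne n)
    exact ⟨σ.1, fun h => hσ1 (Subtype.ext h), σ.2⟩
  choose f hf1 hf using h1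
  obtain ⟨σ, hσ⟩ := Finite.exists_infinite_fiber f
  have hall : ∀ n, σ ∈ ramGroup Γ B n := by
    intro n
    obtain ⟨m, hm, hnm⟩ := (Set.infinite_coe_iff.1 hσ).exists_gt n
    rw [Set.mem_preimage, Set.mem_singleton_iff] at hm
    have := hf m
    rw [hm] at this
    exact ramGroup_antitone hnm.le this
  have hσ1 := eq_one_of_forall_mem_ramGroup hall
  obtain ⟨m, hm⟩ := (Set.infinite_coe_iff.1 hσ).nonempty
  rw [Set.mem_preimage, Set.mem_singleton_iff] at hm
  exact hf1 m (hm.trans hσ1)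

end Fermat.Agent.S56.H334
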