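import Fermat.Agent.S56.H334.RamBasic

/-!
# S56 / W-FLAT-SS, piece FL-RAM (helper334), part 6: the fixed ring `B^H` of a DVR

`A ⊆ B` discrete valuation rings, `B` finite over `A`, `H` a group acting on `B` by
`A`-algebra automorphisms.  Then `B^H = FixedPoints.subalgebra A B H` is a discrete valuation
ring, finite over `A`, and `B` is finite over `B^H`.

* `finite_fixedPoints`, `finite_over_fixedPoints`, `isNoetherianRing_fixedPoints`
* `isDiscreteValuationRing_fixedPoints`
* `fixedPoints_dvd_iff` : divisibility in `B^H` is divisibility in `B`.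
* `fixedPoints_isUnit_iff`, `fixedPoints_mem_maximalIdeal_iff`
-/

set_option autoImplicit false
set_option linter.unusedSectionVars false

open IsLocalRing

namespace Fermat.Agent.S56.H334

section FixedRing

variable (A B : Type*) [CommRing A] [CommRing B] [IsDomain B] [Algebra A B]
  (H : Type*) [Group H] [MulSemiringAction H B] [SMulCommClass H A B]

/-- Divisibility in `B^H` is divisibility in `B`. -/
theorem fixedPoints_dvd_iff (a b : FixedPoints.subalgebra A B H) :
    a ∣ b ↔ (a : B) ∣ (b : B) := by
  constructor
  · rintro ⟨c, rfl⟩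
    exact ⟨c, rfl⟩
  · rintro ⟨c, hc⟩
    by_cases ha : (a : B) = 0
    · refine ⟨0, ?_⟩
      apply Subtype.ext
      rw [hc, ha, zero_mul]
      simp
    · have hfix : ∀ h : H, h • c = c := by
        intro h
        have h1 : h • (b : B) = b := b.2 h
        rw [hc, smul_mul', a.2 h] at h1
        exact mul_left_cancel₀ ha h1
      exact ⟨⟨c, hfix⟩, Subtype.ext hc⟩

theorem fixedPoints_isUnit_iff (a : FixedPoints.subalgebra A B H) :
    IsUnit a ↔ IsUnit (a : B) := by
  rw [isUnit_iff_dvd_one, isUnit_iff_dvd_one, fixedPoints_dvd_iff]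
  rfl

/-- `B^H` is a valuation ring if `B` is. -/
theorem valuationRing_fixedPoints [ValuationRing B] :
    ValuationRing (FixedPoints.subalgebra A B H) := by
  haveI : PreValuationRing (FixedPoints.subalgebra A B H) := ⟨fun a b => ?_⟩
  · exact {}
  obtain ⟨c, hc | hc⟩ := ValuationRing.cond (a : B) (b : B)
  · obtain ⟨c', hc'⟩ := (fixedPoints_dvd_iff A B H a b).2 ⟨c, hc.symm⟩
    exact ⟨c', Or.inl hc'.symm⟩
  · obtain ⟨c', hc'⟩ := (fixedPoints_dvd_iff A B H b a).2 ⟨c, hc.symm⟩
    exact ⟨c', Or.inr hc'.symm⟩

variable [IsDomain A] [IsDiscreteValuationRing A] [IsDiscreteValuationRing B]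
  [Module.Finite A B] [FaithfulSMul A B]

theorem finite_fixedPoints : Module.Finite A (FixedPoints.subalgebra A B H) := by
  have : IsNoetherian A B := isNoetherian_of_isNoetherianRing_of_finite A B
  have : IsNoetherian A (FixedPoints.subalgebra A B H).toSubmodule := inferInstance
  exact Module.IsNoetherian.finite A (FixedPoints.subalgebra A B H).toSubmodule

theorem finite_over_fixedPoints : Module.Finite (FixedPoints.subalgebra A B H) B :=
  Module.Finite.of_restrictScalars_finite A (FixedPoints.subalgebra A B H) B

theorem isNoetherianRing_fixedPoints : IsNoetherianRing (FixedPoints.subalgebra A B H) := by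
  have := finite_fixedPoints A B H
  exact IsNoetherianRing.of_finite A (FixedPoints.subalgebra A B H)

/-- The fixed ring `B^H` is a discrete valuation ring. -/
theorem isDiscreteValuationRing_fixedPoints :
    IsDiscreteValuationRing (FixedPoints.subalgebra A B H) := by
  have := valuationRing_fixedPoints A B H
  have := isNoetherianRing_fixedPoints A B H
  have hpid : IsPrincipalIdealRing (FixedPoints.subalgebra A B H) := inferInstance
  have hloc : IsLocalRing (FixedPoints.subalgebra A B H) := inferInstance
  refine { hpid, hloc with not_a_field' := ?_ }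
  obtain ⟨π, hπ⟩ := IsDiscreteValuationRing.exists_irreducible A
  intro hbot
  have hmem : algebraMap A (FixedPoints.subalgebra A B H) π ∈
      maximalIdeal (FixedPoints.subalgebra A B H) := by
    rw [mem_maximalIdeal, mem_nonunits_iff, fixedPoints_isUnit_iff]
    intro hu
    have hloc : IsLocalHom (algebraMap A B) := inferInstance
    exact hπ.not_isUnit (hloc.map_nonunit π hu)
  rw [hbot, Ideal.mem_bot] at hmem
  have h2 : algebraMap A B π = 0 := congrArg Subtype.val hmem
  rw [FaithfulSMul.algebraMap_eq_zero_iff] at h2
  exact hπ.ne_zero h2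

end FixedRing

end Fermat.Agent.S56.H334
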