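import Fermat.Agent.S56.H334.RamBasic

/-!
# S56 / W-FLAT-SS, piece FL-RAM (helper334), part 2: the maps `θ₀`, `θ_n`

Setting as in `RamBasic`: a DVR `B`, a group `Γ` acting by ring automorphisms, `π` a uniformizer.

* `InertiaResidue Γ B` (hypothesis (H)): every residue class of `B` contains an element fixed by
  the inertia group `Γ₀`.  `inertiaResidue_of_finite`: (H) holds if `Γ` and the residue field are
  finite.
* `mem_ramGroup_iff_dvd_smul_sub` (Serre LF IV §2 Prop. 5): under (H), for `σ ∈ Γ₀`: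
  `σ ∈ Γ_n ↔ π^(n+1) ∣ σ π - π`.
* `cOf hπ σ` : the unit `σ π / π` (a crossed homomorphism `Γ → Bˣ`: `cOf_mul`).
* `theta0 hπ : Γ₀ →* κˣ`, `σ ↦ σ π / π mod 𝔪`, with kernel `Γ₁` (`theta0_eq_one_iff`).
* `theta hπ n : Γ_{n+1} →* Multiplicative κ`, `σ ↦ (σ π / π - 1) / π^(n+1) mod 𝔪`, with kernel
  `Γ_{n+2}` (`theta_eq_zero_iff`).
* equivariance: `theta0_conj`, `theta_conj`:
  `θ_n (g σ g⁻¹) = (g π / π)^n · g • θ_n σ` (`g • ` = induced action on the residue field);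
  for `g ∈ Γ₀`: `θ_n (g σ g⁻¹) = θ₀(g)^n · θ_n σ`.
* `isPGroup_ramGroup_one` : `Γ₁` is a `p`-group (`p` = residue characteristic; `Γ` finite, faithful).
* `pow_card_mem` ... : `Γ₀/Γ₁` is cyclic of order prime to `p`.
-/

set_option autoImplicit false
set_option linter.unusedSectionVars false
set_option linter.style.haveILetI false

open IsLocalRing

namespace Fermat.Agent.S56.H334

variable {B : Type*} [CommRing B] [IsDomain B] [IsDiscreteValuationRing B]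
variable {Γ : Type*} [Group Γ] [MulSemiringAction Γ B]

/-! ### Hypothesis (H) -/

/-- Hypothesis (H): every residue class contains an element fixed by the inertia group. -/
def InertiaResidue (Γ : Type*) (B : Type*) [CommRing B] [IsDomain B] [IsDiscreteValuationRing B]
    [Group Γ] [MulSemiringAction Γ B] : Prop :=
  ∀ b : B, ∃ a : B, (∀ σ ∈ ramGroup Γ B 0, σ • a = a) ∧ b - a ∈ maximalIdeal B

theorem isInvariant_fixedPoints (H : Type*) [Group H] [MulSemiringAction H B] :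
    Algebra.IsInvariant (FixedPoints.subring B H) B H :=
  ⟨fun b hb => ⟨⟨b, hb⟩, rfl⟩⟩

attribute [local instance] Ideal.Quotient.field in
/-- (H) holds when `Γ` and the residue field are finite. -/
theorem inertiaResidue_of_finite [Finite Γ] [Finite (ResidueField B)] : InertiaResidue Γ B := by
  classical
  intro b
  let H := ramGroup Γ B 0
  let B₀ := FixedPoints.subring B H
  let Q : Ideal B := maximalIdeal B
  let P : Ideal B₀ := Q.under B₀
  haveI : Algebra.IsInvariant B₀ B H := isInvariant_fixedPoints H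
  haveI : Q.LiesOver P := ⟨rfl⟩
  haveI hQ : Q.IsMaximal := maximalIdeal.isMaximal B
  haveI : Algebra.IsIntegral B₀ B := Algebra.IsInvariant.isIntegral B₀ B H
  haveI hP : P.IsMaximal := Ideal.isMaximal_comap_of_isIntegral_of_isMaximal Q
  haveI : Finite (B ⧸ Q) := inferInstanceAs (Finite (ResidueField B))
  have hinj : Function.Injective (algebraMap (B₀ ⧸ P) (B ⧸ Q)) :=
    (algebraMap (B₀ ⧸ P) (B ⧸ Q)).injective
  haveI : Finite (B₀ ⧸ P) := Finite.of_injective _ hinj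
  haveI : Normal (B₀ ⧸ P) (B ⧸ Q) := Ideal.Quotient.normal H P Q
  haveI : IsGalois (B₀ ⧸ P) (B ⧸ Q) := { }
  have hsurj := Ideal.Quotient.stabilizerHom_surjective H P Q
  have hfix : ∀ f : (B ⧸ Q) ≃ₐ[B₀ ⧸ P] (B ⧸ Q),
      f (Ideal.Quotient.mk Q b) = Ideal.Quotient.mk Q b := by
    intro f
    obtain ⟨σ, rfl⟩ := hsurj f
    rw [Ideal.Quotient.stabilizerHom_apply, Ideal.Quotient.eq]
    have h := (σ : H).2 b
    rw [zero_add, pow_one] at h
    exact h
  have hbot : Ideal.Quotient.mk Q b ∈ (⊥ : IntermediateField (B₀ ⧸ P) (B ⧸ Q)) :=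
    (IsGalois.mem_bot_iff_fixed _).2 hfix
  obtain ⟨a', ha'⟩ := IntermediateField.mem_bot.1 hbot
  obtain ⟨a, rfl⟩ := Ideal.Quotient.mk_surjective a'
  refine ⟨(a : B), fun σ hσ => a.2 ⟨σ, hσ⟩, ?_⟩
  have h2 : Ideal.Quotient.mk Q (a : B) = Ideal.Quotient.mk Q b := ha'
  exact (Ideal.Quotient.eq.1 h2.symm)

/-! ### The key lemma -/

/-- **Serre, Local Fields IV §2 Prop. 5.**  Under (H), for `σ` in the inertia group:
`σ ∈ Γ_n ↔ π^(n+1) ∣ σ π - π`. -/
theorem mem_ramGroup_iff_dvd_smul_sub (hH : InertiaResidue Γ B) {π : B} (hπ : Irreducible π)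
    {σ : Γ} (hσ : σ ∈ ramGroup Γ B 0) (n : ℕ) :
    σ ∈ ramGroup Γ B n ↔ π ^ (n + 1) ∣ σ • π - π := by
  constructor
  · intro h
    exact (mem_ramGroup_iff_dvd hπ).1 h π
  · intro h
    rw [mem_ramGroup_iff_dvd hπ]
    have key : ∀ m, m ≤ n + 1 → ∀ x : B, π ^ m ∣ σ • x - x := by
      intro m
      induction m with
      | zero =>
        intro _ x
        rw [pow_zero]
        exact one_dvd _
      | succ m ih =>
        intro hm x
        obtain ⟨a, ha, hxa⟩ := hH x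
        rw [hπ.maximalIdeal_eq, Ideal.mem_span_singleton] at hxa
        obtain ⟨y, hy⟩ := hxa
        have hx : x = a + π * y := by rw [← hy]; ring
        have h1 : σ • x - x = (σ • π - π) * σ • y + π * (σ • y - y) := by
          rw [hx, smul_add, smul_mul', ha σ hσ]; ring
        rw [h1]
        apply dvd_add
        · exact ((pow_dvd_pow π hm).trans h).mul_right _
        · rw [pow_succ']
          exact mul_dvd_mul_left π (ih (by omega) y)
    exact key (n + 1) le_rfl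

/-! ### The crossed homomorphism `σ ↦ σ π / π` -/

section cOf

variable {π : B} (hπ : Irreducible π)

/-- The unit `σ π / π`. -/
noncomputable def cOf (σ : Γ) : B :=
  Classical.choose (associated_smul σ hπ).symm.dvd

theorem smul_eq_mul_cOf (σ : Γ) : σ • π = π * cOf hπ σ :=
  Classical.choose_spec (associated_smul σ hπ).symm.dvd

theorem isUnit_cOf (σ : Γ) : IsUnit (cOf hπ σ) := by
  have h := irreducible_smul σ hπ
  rw [smul_eq_mul_cOf hπ σ] at h
  exact (h.isUnit_or_isUnit rfl).resolve_left hπ.not_isUnit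

theorem cOf_mul (σ τ : Γ) : cOf hπ (σ * τ) = cOf hπ σ * σ • cOf hπ τ := by
  have h1 : (σ * τ) • π = π * (cOf hπ σ * σ • cOf hπ τ) := by
    rw [mul_smul, smul_eq_mul_cOf hπ τ, smul_mul', smul_eq_mul_cOf hπ σ, mul_assoc]
  rw [smul_eq_mul_cOf hπ (σ * τ)] at h1
  exact mul_left_cancel₀ hπ.ne_zero h1

theorem cOf_one : cOf hπ (1 : Γ) = 1 := by
  have h1 := smul_eq_mul_cOf hπ (1 : Γ)
  rw [one_smul] at h1
  have h2 : π * 1 = π * cOf hπ (1 : Γ) := by rw [mul_one]; exact h1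
  exact (mul_left_cancel₀ hπ.ne_zero h2).symm

theorem smul_sub_eq (σ : Γ) : σ • π - π = π * (cOf hπ σ - 1) := by
  rw [smul_eq_mul_cOf hπ σ]; ring

theorem pow_dvd_cOf_sub_one_iff (σ : Γ) (n : ℕ) :
    π ^ n ∣ cOf hπ σ - 1 ↔ π ^ (n + 1) ∣ σ • π - π := by
  rw [smul_sub_eq hπ σ, pow_succ']
  exact (mul_dvd_mul_iff_left hπ.ne_zero).symm

theorem residue_smul_eq_of_mem {σ : Γ} (hσ : σ ∈ ramGroup Γ B 0) (x : B) :
    residue B (σ • x) = residue B x := by
  have h := hσ x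
  rw [zero_add, pow_one] at h
  rw [← sub_eq_zero, ← map_sub]
  exact (residue_eq_zero_iff _).2 h

include hπ in
theorem residue_eq_zero_iff_dvd (x : B) : residue B x = 0 ↔ π ∣ x := by
  rw [residue_eq_zero_iff, hπ.maximalIdeal_eq, Ideal.mem_span_singleton]

include hπ in
theorem residue_pi : residue B π = 0 :=
  (residue_eq_zero_iff_dvd hπ π).2 dvd_rfl

/-- Comparison of `σ π' / π'` with `σ π / π` for another uniformizer: congruent modulo
`𝔪^(n+1)` when `σ ∈ Γ_n`. -/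
theorem cOf_conj_sub_dvd (g : Γ) {σ : Γ} {n : ℕ} (hσ : σ ∈ ramGroup Γ B n) :
    π ^ (n + 1) ∣ cOf hπ (g * σ * g⁻¹) - g • cOf hπ σ := by
  -- `c_{gσg⁻¹} = c_g · g(c_σ) · gσ(c_{g⁻¹})` and `c_g · g(c_{g⁻¹}) = 1`
  have h1 : cOf hπ (g * σ * g⁻¹) = cOf hπ g * g • cOf hπ σ * (g * σ) • cOf hπ g⁻¹ := by
    rw [cOf_mul, cOf_mul]
  have h2 : cOf hπ g * g • cOf hπ g⁻¹ = 1 := by
    rw [← cOf_mul, mul_inv_cancel, cOf_one]
  have h3 : π ^ (n + 1) ∣ σ • cOf hπ g⁻¹ - cOf hπ g⁻¹ := (mem_ramGroup_iff_dvd hπ).1 hσ _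
  have h4 : π ^ (n + 1) ∣ g • (σ • cOf hπ g⁻¹ - cOf hπ g⁻¹) :=
    (pow_dvd_smul_iff g hπ (n + 1) _).2 h3
  have h5 : cOf hπ (g * σ * g⁻¹) - g • cOf hπ σ =
      cOf hπ g * g • cOf hπ σ * (g • (σ • cOf hπ g⁻¹ - cOf hπ g⁻¹)) := by
    rw [h1, smul_sub, mul_smul]
    have : cOf hπ g * g • cOf hπ σ * (g • σ • cOf hπ g⁻¹ - g • cOf hπ g⁻¹) =
        cOf hπ g * g • cOf hπ σ * g • σ • cOf hπ g⁻¹ -
          (cOf hπ g * g • cOf hπ g⁻¹) * g • cOf hπ σ := by ring
    rw [this, h2, one_mul]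
  rw [h5]
  exact Dvd.dvd.mul_left h4 _

end cOf

/-! ### `θ₀` -/

section theta0

variable {π : B} (hπ : Irreducible π)

/-- `θ₀ : Γ₀ → κ`, `σ ↦ σ π / π mod 𝔪` (as a monoid homomorphism into `κ`). -/
noncomputable def theta0Hom : ramGroup Γ B 0 →* ResidueField B where
  toFun σ := residue B (cOf hπ (σ : Γ))
  map_one' := by
    show residue B (cOf hπ ((1 : ramGroup Γ B 0) : Γ)) = 1
    rw [Subgroup.coe_one, cOf_one, map_one]
  map_mul' σ τ := by
    show residue B (cOf hπ ((σ * τ : ramGroup Γ B 0) : Γ)) =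
      residue B (cOf hπ (σ : Γ)) * residue B (cOf hπ (τ : Γ))
    rw [Subgroup.coe_mul, cOf_mul, map_mul, residue_smul_eq_of_mem σ.2]

/-- `θ₀ : Γ₀ →* κˣ`. -/
noncomputable def theta0 : ramGroup Γ B 0 →* (ResidueField B)ˣ :=
  (theta0Hom hπ).toHomUnits

theorem theta0_apply (σ : ramGroup Γ B 0) :
    ((theta0 hπ σ : (ResidueField B)ˣ) : ResidueField B) = residue B (cOf hπ (σ : Γ)) :=
  rfl

/-- The kernel of `θ₀` is `Γ₁`. -/
theorem theta0_eq_one_iff (hH : InertiaResidue Γ B) (σ : ramGroup Γ B 0) :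
    theta0 hπ σ = 1 ↔ (σ : Γ) ∈ ramGroup Γ B 1 := by
  rw [mem_ramGroup_iff_dvd_smul_sub hH hπ σ.2 1, ← pow_dvd_cOf_sub_one_iff hπ, pow_one,
    ← residue_eq_zero_iff_dvd hπ, map_sub, map_one, sub_eq_zero, ← theta0_apply hπ σ]
  constructor
  · intro h
    rw [h, Units.val_one]
  · intro h
    exact Units.ext h

/-- Equivariance of `θ₀`: `θ₀(g σ g⁻¹) = g • θ₀(σ)`. -/
theorem theta0_conj (g : Γ) (σ : ramGroup Γ B 0) :
    residue B (cOf hπ (g * (σ : Γ) * g⁻¹)) = g • residue B (cOf hπ (σ : Γ)) := by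
  have h := cOf_conj_sub_dvd hπ g σ.2
  rw [zero_add, pow_one, ← residue_eq_zero_iff_dvd hπ, map_sub, sub_eq_zero] at h
  rw [h, IsLocalRing.ResidueField.residue_smul]

end theta0

/-! ### `θ_n`, `n ≥ 1` -/

section theta

variable {π : B} (hπ : Irreducible π)

/-- `(σ π / π - 1) / π^(n+1)` (and `0` if `σ π / π - 1` is not divisible by `π^(n+1)`). -/
noncomputable def aOf (n : ℕ) (σ : Γ) : B :=
  open Classical in
  if h : π ^ (n + 1) ∣ cOf hπ σ - 1 then Classical.choose h else 0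

theorem cOf_eq_of_mem {n : ℕ} {σ : Γ} (hσ : σ ∈ ramGroup Γ B (n + 1)) :
    cOf hπ σ = 1 + π ^ (n + 1) * aOf hπ n σ := by
  have h : π ^ (n + 1) ∣ cOf hπ σ - 1 :=
    (pow_dvd_cOf_sub_one_iff hπ σ (n + 1)).2 ((mem_ramGroup_iff_dvd hπ).1 hσ π)
  rw [aOf, dif_pos h, ← Classical.choose_spec h]
  ring

/-- Characterisation of the residue of `aOf`. -/
theorem residue_aOf_eq {n : ℕ} {σ : Γ} (hσ : σ ∈ ramGroup Γ B (n + 1)) {a : B}
    (ha : π ^ (n + 2) ∣ cOf hπ σ - 1 - π ^ (n + 1) * a) :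
    residue B (aOf hπ n σ) = residue B a := by
  rw [cOf_eq_of_mem hπ hσ] at ha
  have h1 : 1 + π ^ (n + 1) * aOf hπ n σ - 1 - π ^ (n + 1) * a =
      π ^ (n + 1) * (aOf hπ n σ - a) := by ring
  rw [h1, pow_succ π (n + 1)] at ha
  have h2 : π ∣ aOf hπ n σ - a := (mul_dvd_mul_iff_left (pow_ne_zero _ hπ.ne_zero)).1 ha
  rw [← sub_eq_zero, ← map_sub]
  exact (residue_eq_zero_iff_dvd hπ _).2 h2

theorem residue_aOf_mul {n : ℕ} (σ τ : ramGroup Γ B (n + 1)) :
    residue B (aOf hπ n ((σ * τ : ramGroup Γ B (n + 1)) : Γ)) =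
      residue B (aOf hπ n (σ : Γ)) + residue B (aOf hπ n (τ : Γ)) := by
  rw [← map_add]
  apply residue_aOf_eq hπ (σ * τ).2
  rw [Subgroup.coe_mul, cOf_mul, cOf_eq_of_mem hπ σ.2, cOf_eq_of_mem hπ τ.2]
  set a := aOf hπ n (σ : Γ) with ha
  set b := aOf hπ n (τ : Γ) with hb
  have hσa : π ^ (n + 2) ∣ (σ : Γ) • b - b := (mem_ramGroup_iff_dvd hπ).1 σ.2 _
  obtain ⟨d, hd⟩ := hσa
  have hd' : (σ : Γ) • b = b + π ^ (n + 2) * d := by rw [← hd]; ring
  have hσπ : (σ : Γ) • π = π * (1 + π ^ (n + 1) * a) := by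
    rw [ha, ← cOf_eq_of_mem hπ σ.2]
    exact smul_eq_mul_cOf hπ _
  obtain ⟨s, hs⟩ : ∃ s : B, (1 + π ^ (n + 1) * a) ^ (n + 1) = 1 + π ^ (n + 1) * a * s := by
    obtain ⟨s, hs⟩ := sub_dvd_pow_sub_pow (1 + π ^ (n + 1) * a) 1 (n + 1)
    refine ⟨s, ?_⟩
    rw [one_pow] at hs
    have : (1 + π ^ (n + 1) * a) ^ (n + 1) = 1 + (1 + π ^ (n + 1) * a - 1) * s := by
      rw [← hs]; ring
    rw [this]; ring
  have e1 : (σ : Γ) • (1 + π ^ (n + 1) * b) =
      1 + π ^ (n + 1) * (1 + π ^ (n + 1) * a * s) * (b + π ^ (n + 2) * d) := by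
    rw [smul_add, smul_one, smul_mul', smul_pow', hσπ, hd', mul_pow, hs]
  rw [e1]
  refine ⟨π ^ n * a * s * b + π ^ (n + 1) * d * (1 + π ^ (n + 1) * a * s)
    + π ^ n * a * (1 + π ^ (n + 1) * a * s) * (b + π ^ (n + 2) * d), ?_⟩
  ring

/-- `θ_{n+1} : Γ_{n+1} →* (κ, +)`, `σ ↦ (σ π / π - 1) / π^(n+1) mod 𝔪`. -/
noncomputable def theta (n : ℕ) : ramGroup Γ B (n + 1) →* Multiplicative (ResidueField B) where
  toFun σ := Multiplicative.ofAdd (residue B (aOf hπ n (σ : Γ)))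
  map_one' := by
    have h : residue B (aOf hπ n ((1 : ramGroup Γ B (n + 1)) : Γ)) = residue B 0 := by
      apply residue_aOf_eq hπ (1 : ramGroup Γ B (n + 1)).2
      rw [Subgroup.coe_one, cOf_one, sub_self, mul_zero, sub_zero]
      exact dvd_zero _
    rw [h, map_zero]
    rfl
  map_mul' σ τ := by
    rw [residue_aOf_mul hπ σ τ]
    rfl

theorem theta_apply (n : ℕ) (σ : ramGroup Γ B (n + 1)) :
    Multiplicative.toAdd (theta hπ n σ) = residue B (aOf hπ n (σ : Γ)) :=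
  rfl

/-- The kernel of `θ_{n+1}` is `Γ_{n+2}`. -/
theorem theta_eq_one_iff (hH : InertiaResidue Γ B) (n : ℕ) (σ : ramGroup Γ B (n + 1)) :
    theta hπ n σ = 1 ↔ (σ : Γ) ∈ ramGroup Γ B (n + 2) := by
  have hσ0 : (σ : Γ) ∈ ramGroup Γ B 0 := ramGroup_antitone (Nat.zero_le _) σ.2
  rw [mem_ramGroup_iff_dvd_smul_sub hH hπ hσ0 (n + 2), ← pow_dvd_cOf_sub_one_iff hπ]
  have h1 : cOf hπ (σ : Γ) - 1 = π ^ (n + 1) * aOf hπ n (σ : Γ) := by
    rw [cOf_eq_of_mem hπ σ.2]; ring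
  rw [h1, pow_succ' π (n + 1), mul_comm π (π ^ (n + 1)),
    mul_dvd_mul_iff_left (pow_ne_zero _ hπ.ne_zero), ← residue_eq_zero_iff_dvd hπ,
    ← theta_apply hπ n σ]
  constructor
  · intro h
    rw [h]
    rfl
  · intro h
    exact Multiplicative.toAdd.injective h

/-- Equivariance of `θ_{n+1}`: `θ(g σ g⁻¹) = (g π / π)^(n+1) · g • θ(σ)`. -/
theorem theta_conj (n : ℕ) (g : Γ) (σ : ramGroup Γ B (n + 1)) :
    residue B (aOf hπ n (g * (σ : Γ) * g⁻¹)) =
      residue B (cOf hπ g) ^ (n + 1) * g • residue B (aOf hπ n (σ : Γ)) := by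
  have hmem : g * (σ : Γ) * g⁻¹ ∈ ramGroup Γ B (n + 1) :=
    (ramGroup_normal (n + 1)).conj_mem _ σ.2 g
  rw [← IsLocalRing.ResidueField.residue_smul, ← map_pow, ← map_mul]
  apply residue_aOf_eq hπ hmem
  have h := cOf_conj_sub_dvd hπ g σ.2
  have h2 : g • cOf hπ (σ : Γ) = 1 + π ^ (n + 1) * (cOf hπ g ^ (n + 1) * g • aOf hπ n (σ : Γ)) := by
    rw [cOf_eq_of_mem hπ σ.2, smul_add, smul_one, smul_mul', smul_pow', smul_eq_mul_cOf hπ g,
      mul_pow]
    ring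
  have h3 : cOf hπ (g * (σ : Γ) * g⁻¹) - 1 -
      π ^ (n + 1) * (cOf hπ g ^ (n + 1) * g • aOf hπ n (σ : Γ)) =
      cOf hπ (g * (σ : Γ) * g⁻¹) - g • cOf hπ (σ : Γ) := by
    rw [h2]; ring
  rw [h3]
  exact h

/-- For `g` in the inertia group: `θ(g σ g⁻¹) = θ₀(g)^(n+1) · θ(σ)`. -/
theorem theta_conj_of_mem (n : ℕ) {g : Γ} (hg : g ∈ ramGroup Γ B 0)
    (σ : ramGroup Γ B (n + 1)) :
    residue B (aOf hπ n (g * (σ : Γ) * g⁻¹)) =
      residue B (cOf hπ g) ^ (n + 1) * residue B (aOf hπ n (σ : Γ)) := by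
  rw [theta_conj hπ n g σ, ← IsLocalRing.ResidueField.residue_smul, residue_smul_eq_of_mem hg]

end theta

/-! ### Consequences for the group structure -/

section Structure

variable {π : B} (hπ : Irreducible π)

include hπ in
/-- `σ ∈ Γ_{n+1}` implies `σ ^ p ∈ Γ_{n+2}` (`p` the residue characteristic). -/
theorem pow_char_mem_ramGroup (hH : InertiaResidue Γ B) (p : ℕ) [CharP (ResidueField B) p]
    {n : ℕ} {σ : Γ} (hσ : σ ∈ ramGroup Γ B (n + 1)) : σ ^ p ∈ ramGroup Γ B (n + 2) := by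
  have h := (theta_eq_one_iff hπ hH n (⟨σ, hσ⟩ ^ p)).1 (by
    rw [map_pow]
    apply Multiplicative.toAdd.injective
    rw [toAdd_pow, toAdd_one, nsmul_eq_mul, CharP.cast_eq_zero, zero_mul])
  exact h

/-- `Γ₁` is a `p`-group (`Γ` finite acting faithfully, `p` the residue characteristic). -/
theorem isPGroup_ramGroup_one (hH : InertiaResidue Γ B) (p : ℕ) [CharP (ResidueField B) p]
    [Finite Γ] [FaithfulSMul Γ B] : IsPGroup p (ramGroup Γ B 1) := by
  obtain ⟨π, hπ⟩ := IsDiscreteValuationRing.exists_irreducible B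
  obtain ⟨N, hN⟩ := exists_ramGroup_eq_bot (Γ := Γ) (B := B)
  have key : ∀ k : ℕ, ∀ σ : Γ, σ ∈ ramGroup Γ B 1 → σ ^ (p ^ k) ∈ ramGroup Γ B (k + 1) := by
    intro k
    induction k with
    | zero =>
      intro σ hσ
      rwa [pow_zero, pow_one]
    | succ k ih =>
      intro σ hσ
      rw [pow_succ, pow_mul]
      exact pow_char_mem_ramGroup hπ hH p (ih σ hσ)
  intro σ
  refine ⟨N, ?_⟩
  have h := key N σ σ.2
  have h' : (σ : Γ) ^ (p ^ N) ∈ ramGroup Γ B N := ramGroup_antitone (Nat.le_succ N) h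
  rw [hN, Subgroup.mem_bot] at h'
  exact Subtype.ext h'

/-- `θ₀` separates the cosets of `Γ₁` in `Γ₀`. -/
theorem theta0_eq_iff (hH : InertiaResidue Γ B) (σ τ : ramGroup Γ B 0) :
    theta0 hπ σ = theta0 hπ τ ↔ ((σ⁻¹ * τ : ramGroup Γ B 0) : Γ) ∈ ramGroup Γ B 1 := by
  rw [← theta0_eq_one_iff hπ hH, map_mul, map_inv, inv_mul_eq_one]

/-- `Γ₀ / Γ₁` embeds into `κˣ`. -/
noncomputable def theta0Quot (hH : InertiaResidue Γ B) :
    (ramGroup Γ B 0 ⧸ (ramGroup Γ B 1).subgroupOf (ramGroup Γ B 0)) →* (ResidueField B)ˣ :=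
  QuotientGroup.lift _ (theta0 hπ) (fun σ hσ => (theta0_eq_one_iff hπ hH σ).2 hσ)

theorem theta0Quot_injective (hH : InertiaResidue Γ B) :
    Function.Injective (theta0Quot hπ hH) := by
  rw [injective_iff_map_eq_one]
  intro x hx
  obtain ⟨σ, rfl⟩ := QuotientGroup.mk_surjective x
  have h1 : theta0 hπ σ = 1 := hx
  rw [QuotientGroup.eq_one_iff]
  exact (theta0_eq_one_iff hπ hH σ).1 h1

/-- `Γ₀ / Γ₁` is cyclic. -/
theorem isCyclic_inertia_quotient (hH : InertiaResidue Γ B) [Finite Γ] :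
    IsCyclic (ramGroup Γ B 0 ⧸ (ramGroup Γ B 1).subgroupOf (ramGroup Γ B 0)) := by
  obtain ⟨π, hπ⟩ := IsDiscreteValuationRing.exists_irreducible B
  exact isCyclic_of_injective_ringHom
    ((Units.coeHom (ResidueField B)).comp (theta0Quot hπ hH))
    (Units.val_injective.comp (theta0Quot_injective hπ hH))

/-- The order of `Γ₀ / Γ₁` is prime to the residue characteristic. -/
theorem not_dvd_card_inertia_quotient (hH : InertiaResidue Γ B) [Finite Γ] (p : ℕ)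
    [hp : Fact p.Prime] [CharP (ResidueField B) p] :
    ¬ p ∣ Nat.card (ramGroup Γ B 0 ⧸ (ramGroup Γ B 1).subgroupOf (ramGroup Γ B 0)) := by
  obtain ⟨π, hπ⟩ := IsDiscreteValuationRing.exists_irreducible B
  intro hdvd
  obtain ⟨x, hx⟩ := exists_prime_orderOf_dvd_card' p hdvd
  have h1 : x ^ p = 1 := by rw [← hx]; exact pow_orderOf_eq_one x
  have h2 : ((theta0Quot hπ hH x : (ResidueField B)ˣ) : ResidueField B) ^ p = 1 := by
    rw [← Units.val_pow_eq_pow_val, ← map_pow, h1, map_one, Units.val_one]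
  have h3 : ((theta0Quot hπ hH x : (ResidueField B)ˣ) : ResidueField B) = 1 := by
    have h4 : (((theta0Quot hπ hH x : (ResidueField B)ˣ) : ResidueField B) - 1) ^ p = 0 := by
      rw [sub_pow_char, one_pow, h2, sub_self]
    exact sub_eq_zero.1 (pow_eq_zero_iff (hp.out.ne_zero) |>.1 h4)
  have h5 : theta0Quot hπ hH x = 1 := Units.ext h3
  have h6 : x = 1 := theta0Quot_injective hπ hH (h5.trans (map_one _).symm)
  rw [h6, orderOf_one] at hx
  exact hp.out.one_lt.ne hx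

end Structure

end Fermat.Agent.S56.H334
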